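import Mathlib

/-!
# Programme III, X1-AN-1b (`DS/Div`), file 2: regrouping a double Lambert-type sum by the exponent

`ε m d` an exponent attached to a pair `(m, d)` with `d ∣ m`; `q` a complex number.  The double sum
`∑_{i, j ≥ 0} (j+1) q^{ε ((i+1)(j+1)) (j+1)}` (pairs `(m, d) = ((i+1)(j+1), j+1)`, i.e. all pairs
with `1 ≤ d ∣ m`), if (absolutely) summable, equals the power series
`∑_n (∑_{1 ≤ m ≤ n} ∑_{d ∣ m} [ε m d = n] d) q^n`, provided `m ≤ ε m d`.

This is the shape of the coefficients of `tateX M a` (`ε m d = M m ± a d`) and of `E₂(q^M)`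
(`ε m d = M m`).
-/

set_option autoImplicit false

namespace Fermat.Agent.DS.Div

open Finset

/-- The coefficient `∑_{1 ≤ m ≤ n} ∑_{d ∣ m} [ε m d = n] d`. -/
def regroupCoeff (ε : ℕ → ℕ → ℕ) (n : ℕ) : ℤ :=
  ∑ m ∈ Icc 1 n, ∑ d ∈ m.divisors, if ε m d = n then (d : ℤ) else 0

/-- **Regrouping by the exponent.** -/
theorem hasSum_regroup (ε : ℕ → ℕ → ℕ) (hε : ∀ m d : ℕ, 0 < m → d ∣ m → m ≤ ε m d) (q : ℂ)
    (hG : Summable fun b : ℕ × ℕ =>
      ((b.2 + 1 : ℕ) : ℂ) * q ^ ε ((b.1 + 1) * (b.2 + 1)) (b.2 + 1)) :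
    HasSum (fun n : ℕ => ((regroupCoeff ε n : ℤ) : ℂ) * q ^ n)
      (∑' b : ℕ × ℕ, ((b.2 + 1 : ℕ) : ℂ) * q ^ ε ((b.1 + 1) * (b.2 + 1)) (b.2 + 1)) := by
  classical
  set G : ℕ × ℕ → ℂ := fun b => ((b.2 + 1 : ℕ) : ℂ) * q ^ ε ((b.1 + 1) * (b.2 + 1)) (b.2 + 1)
    with hGdef
  set e : ℕ × ℕ → ℕ := fun b => ε ((b.1 + 1) * (b.2 + 1)) (b.2 + 1) with hedef
  have h := hG.hasSum.tsum_fiberwise e
  have hfun : (fun n : ℕ => ((regroupCoeff ε n : ℤ) : ℂ) * q ^ n) =
      fun n : ℕ => ∑' b : e ⁻¹' {n}, G b := by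
    funext n
    -- the fibre sum as a finite sum
    have hle : ∀ b : ℕ × ℕ, e b = n → b.1 < n ∧ b.2 < n := by
      intro b hb
      have h1 : (b.1 + 1) * (b.2 + 1) ≤ n := by
        rw [← hb]
        exact hε _ _ (Nat.mul_pos (Nat.succ_pos _) (Nat.succ_pos _)) (Dvd.intro_left _ rfl)
      constructor
      · have : b.1 + 1 ≤ (b.1 + 1) * (b.2 + 1) := Nat.le_mul_of_pos_right _ (Nat.succ_pos _)
        omega
      · have : b.2 + 1 ≤ (b.1 + 1) * (b.2 + 1) := Nat.le_mul_of_pos_left _ (Nat.succ_pos _)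
        omega
    have hR : ∑' b : e ⁻¹' {n}, G b =
        ∑ b ∈ (range n ×ˢ range n).filter (fun b => e b = n), G b := by
      rw [tsum_subtype (e ⁻¹' {n}) G, tsum_eq_sum (s := (range n ×ˢ range n).filter fun b => e b = n)]
      · refine Finset.sum_congr rfl fun b hb => ?_
        rw [Set.indicator_of_mem]
        exact (mem_filter.mp hb).2
      · intro b hb
        rw [Set.indicator_of_notMem]
        intro hb'
        apply hb
        have hb'' : e b = n := hb'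
        rw [mem_filter, mem_product, mem_range, mem_range]
        exact ⟨hle b hb'', hb''⟩
    have hL : ((regroupCoeff ε n : ℤ) : ℂ) * q ^ n =
        ∑ x ∈ ((Icc 1 n).sigma fun m => m.divisors).filter (fun x => ε x.1 x.2 = n),
          ((x.2 : ℕ) : ℂ) * q ^ n := by
      rw [regroupCoeff, Finset.sum_filter, Finset.sum_sigma, Int.cast_sum, Finset.sum_mul]
      refine Finset.sum_congr rfl fun m _ => ?_
      rw [Int.cast_sum, Finset.sum_mul]
      refine Finset.sum_congr rfl fun d _ => ?_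
      split_ifs <;> simp
    rw [hL, hR]
    symm
    refine Finset.sum_nbij' (fun b => ⟨(b.1 + 1) * (b.2 + 1), b.2 + 1⟩)
      (fun x => (x.1 / x.2 - 1, x.2 - 1)) ?_ ?_ ?_ ?_ ?_
    · intro b hb
      rw [mem_filter] at hb
      rw [mem_filter, mem_sigma, mem_Icc, Nat.mem_divisors]
      have hb2 : e b = n := hb.2
      have hpos : 0 < (b.1 + 1) * (b.2 + 1) := Nat.mul_pos (Nat.succ_pos _) (Nat.succ_pos _)
      refine ⟨⟨⟨hpos, ?_⟩, Dvd.intro_left _ rfl, hpos.ne'⟩, hb2⟩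
      rw [← hb2]
      exact hε _ _ hpos (Dvd.intro_left _ rfl)
    · intro x hx
      rw [mem_filter, mem_sigma, mem_Icc, Nat.mem_divisors] at hx
      obtain ⟨⟨⟨hm1, hmn⟩, hdvd, hm0⟩, hεx⟩ := hx
      obtain ⟨c, hc⟩ := hdvd
      have hd0 : 0 < x.2 := Nat.pos_of_ne_zero fun h0 => hm0 (by rw [hc, h0, zero_mul])
      have hc0 : 0 < c := Nat.pos_of_ne_zero fun h0 => hm0 (by rw [hc, h0, mul_zero])
      have hdiv : x.1 / x.2 = c := by rw [hc, Nat.mul_div_cancel_left _ hd0]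
      have hback : (x.1 / x.2 - 1 + 1) * (x.2 - 1 + 1) = x.1 := by
        rw [hdiv, Nat.sub_add_cancel hc0, Nat.sub_add_cancel hd0, hc, mul_comm]
      rw [mem_filter, mem_product, mem_range, mem_range]
      have he : e (x.1 / x.2 - 1, x.2 - 1) = n := by
        simp only [hedef]
        rw [hback, Nat.sub_add_cancel hd0]
        exact hεx
      exact ⟨hle _ he, he⟩
    · intro b _
      simp only
      rw [Nat.mul_div_cancel _ (Nat.succ_pos _)]
      rfl
    · intro x hx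
      rw [mem_filter, mem_sigma, mem_Icc, Nat.mem_divisors] at hx
      obtain ⟨⟨⟨hm1, hmn⟩, hdvd, hm0⟩, hεx⟩ := hx
      obtain ⟨c, hc⟩ := hdvd
      have hd0 : 0 < x.2 := Nat.pos_of_ne_zero fun h0 => hm0 (by rw [hc, h0, zero_mul])
      have hc0 : 0 < c := Nat.pos_of_ne_zero fun h0 => hm0 (by rw [hc, h0, mul_zero])
      have hdiv : x.1 / x.2 = c := by rw [hc, Nat.mul_div_cancel_left _ hd0]
      have hback : (x.1 / x.2 - 1 + 1) * (x.2 - 1 + 1) = x.1 := by
        rw [hdiv, Nat.sub_add_cancel hc0, Nat.sub_add_cancel hd0, hc, mul_comm]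
      refine Sigma.ext hback ?_
      simp only
      rw [Nat.sub_add_cancel hd0]
    · intro b hb
      rw [mem_filter] at hb
      have hb2 : e b = n := hb.2
      simp only [hGdef]
      rw [← hb2]
  rw [hfun]
  exact h

end Fermat.Agent.DS.Div
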