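import Fermat.Agent.DS.Div.Tate
import Fermat.Agent.DS.Div.Regroup

/-!
# Programme III, X1-AN-1b (`DS/Div`), file 3: the `q`-series of `12 ℘(aτ; ℤMτ+ℤ)/(2πi)²`

For `0 < a < M`, `τ ∈ ℍ`, `σ = Mτ`, `q = e(τ)`:

  `12 ℘[ℤσ+ℤ](aτ)/(2πi)² = ∑_n c_n q^n`,  `c = tateCoeffZ M a`,

where `tateCoeffZ M a n = [n = 0] + 12 ([a ∣ n, n > 0] n/a + ∑_{m,d∣m} [Mm+ad=n] d + ∑ [Mm-ad=n] d)
- 24 ∑_{m, d ∣ m} [Mm = n] d` is the `n`-th coefficient of `12 · tateX M a + E₂(q^M)`.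
-/

set_option autoImplicit false

namespace Fermat.Agent.DS.Div

open Complex
open UpperHalfPlane hiding I
open scoped Real PeriodPair Nat

noncomputable section

/-! ### Lambert rows -/

/-- `λ(x) = ∑_j (j+1) x^(j+1)`. -/
theorem hasSum_lam_succ {x : ℂ} (hx : ‖x‖ < 1) :
    HasSum (fun j : ℕ => ((j + 1 : ℕ) : ℂ) * x ^ (j + 1)) (lam x) := by
  have h := (hasSum_nat_add_iff' 1).mpr (hasSum_lam hx)
  simpa using h

theorem norm_pow_lt_one {q : ℂ} (hq : ‖q‖ < 1) {x : ℕ} (hx : 0 < x) : ‖q ^ x‖ < 1 := by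
  rw [norm_pow]
  exact pow_lt_one₀ (norm_nonneg q) hq hx.ne'

/-- Summability of the double Lambert sum `∑_{i,j} (j+1) q^{(j+1) x_i}` when `x_i ≥ i + 1`. -/
theorem summable_lambert_double {q : ℂ} (hq : ‖q‖ < 1) (x : ℕ → ℕ) (hx : ∀ i, i + 1 ≤ x i) :
    Summable fun b : ℕ × ℕ => ((b.2 + 1 : ℕ) : ℂ) * q ^ ((b.2 + 1) * x b.1) := by
  set r : ℝ := ‖q‖ with hr
  have hr0 : 0 ≤ r := norm_nonneg q
  have h1 : Summable fun i : ℕ => r ^ i := summable_geometric_of_lt_one hr0 hq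
  have h2 : Summable fun j : ℕ => ((j + 1 : ℕ) : ℝ) * r ^ (j + 1) := by
    have h := (hasSum_coe_mul_geometric_of_norm_lt_one (𝕜 := ℝ) (r := r)
      (by rwa [Real.norm_of_nonneg hr0])).summable
    exact (summable_nat_add_iff 1).mpr h
  have h3 : Summable fun b : ℕ × ℕ => r ^ b.1 * (((b.2 + 1 : ℕ) : ℝ) * r ^ (b.2 + 1)) :=
    h1.mul_of_nonneg h2 (fun i => pow_nonneg hr0 i) (fun j => by positivity)
  refine Summable.of_norm_bounded h3 fun b => ?_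
  rw [norm_mul, norm_pow, Complex.norm_natCast, ← hr]
  have hexp : b.1 + (b.2 + 1) ≤ (b.2 + 1) * x b.1 := by
    have h1 := hx b.1
    calc b.1 + (b.2 + 1) ≤ x b.1 + b.2 * x b.1 := by
          have : b.2 ≤ b.2 * x b.1 := Nat.le_mul_of_pos_right _ (by omega)
          omega
      _ = (b.2 + 1) * x b.1 := by ring
  have hle : r ^ ((b.2 + 1) * x b.1) ≤ r ^ (b.1 + (b.2 + 1)) :=
    pow_le_pow_of_le_one hr0 hq.le hexp
  calc ((b.2 + 1 : ℕ) : ℝ) * r ^ ((b.2 + 1) * x b.1)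
      ≤ ((b.2 + 1 : ℕ) : ℝ) * r ^ (b.1 + (b.2 + 1)) :=
        mul_le_mul_of_nonneg_left hle (Nat.cast_nonneg _)
    _ = r ^ b.1 * (((b.2 + 1 : ℕ) : ℝ) * r ^ (b.2 + 1)) := by rw [pow_add]; ring

/-- The double Lambert sum as a sum of Lambert rows. -/
theorem hasSum_lambert_rows {q : ℂ} (hq : ‖q‖ < 1) (x : ℕ → ℕ) (hx : ∀ i, i + 1 ≤ x i) :
    HasSum (fun i : ℕ => lam (q ^ x i))
      (∑' b : ℕ × ℕ, ((b.2 + 1 : ℕ) : ℂ) * q ^ ((b.2 + 1) * x b.1)) := by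
  have hs := summable_lambert_double hq x hx
  refine hs.hasSum.prod_fiberwise fun i => ?_
  have hxi : 0 < x i := lt_of_lt_of_le (Nat.succ_pos i) (hx i)
  have h := hasSum_lam_succ (norm_pow_lt_one hq hxi)
  have hfun : (fun j : ℕ => ((j + 1 : ℕ) : ℂ) * q ^ ((j + 1) * x i)) =
      fun j : ℕ => ((j + 1 : ℕ) : ℂ) * (q ^ x i) ^ (j + 1) := by
    funext j
    rw [← pow_mul, mul_comm (x i)]
  change HasSum (fun j : ℕ => ((j + 1 : ℕ) : ℂ) * q ^ ((j + 1) * x i)) _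
  rw [hfun]
  exact h

/-- Regrouping a sum of Lambert rows `∑_i λ(q^{x_i})` as a power series. -/
theorem hasSum_regroup_lambert {q : ℂ} (hq : ‖q‖ < 1) (ε : ℕ → ℕ → ℕ) (x : ℕ → ℕ)
    (hx : ∀ i, i + 1 ≤ x i) (hεx : ∀ i j : ℕ, ε ((i + 1) * (j + 1)) (j + 1) = (j + 1) * x i)
    (hε : ∀ m d : ℕ, 0 < m → d ∣ m → m ≤ ε m d) :
    HasSum (fun n : ℕ => ((regroupCoeff ε n : ℤ) : ℂ) * q ^ n) (∑' i : ℕ, lam (q ^ x i)) ∧
      Summable fun i : ℕ => lam (q ^ x i) := by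
  have hfun : (fun b : ℕ × ℕ => ((b.2 + 1 : ℕ) : ℂ) * q ^ ε ((b.1 + 1) * (b.2 + 1)) (b.2 + 1)) =
      fun b : ℕ × ℕ => ((b.2 + 1 : ℕ) : ℂ) * q ^ ((b.2 + 1) * x b.1) := by
    funext b
    rw [hεx]
  have hs := summable_lambert_double hq x hx
  have h1 := hasSum_regroup ε hε q (by rw [hfun]; exact hs)
  rw [hfun] at h1
  have h2 := hasSum_lambert_rows hq x hx
  rw [h2.tsum_eq]
  exact ⟨h1, h2.summable⟩

/-! ### The three exponent functions -/

/-- `(m, d) ↦ M m + a d` -/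
def epsP (M a : ℕ) (m d : ℕ) : ℕ := M * m + a * d
/-- `(m, d) ↦ M m - a d` -/
def epsM (M a : ℕ) (m d : ℕ) : ℕ := M * m - a * d
/-- `(m, d) ↦ M m` -/
def epsZ (M : ℕ) (m _d : ℕ) : ℕ := M * m

/-- The coefficients of `12 · tateX M a + E₂(q^M)`. -/
def tateCoeffZ (M a n : ℕ) : ℤ :=
  (if n = 0 then 1 else 0) +
    12 * ((if 0 < n ∧ a ∣ n then ((n / a : ℕ) : ℤ) else 0) + regroupCoeff (epsP M a) n +
      regroupCoeff (epsM M a) n) - 24 * regroupCoeff (epsZ M) n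

theorem hasSum_lam_pow {q : ℂ} (hq : ‖q‖ < 1) {a : ℕ} (ha : 0 < a) :
    HasSum (fun n : ℕ => (((if 0 < n ∧ a ∣ n then ((n / a : ℕ) : ℤ) else 0 : ℤ)) : ℂ) * q ^ n)
      (lam (q ^ a)) := by
  have h := hasSum_lam (norm_pow_lt_one hq ha)
  have hinj : Function.Injective fun k : ℕ => a * k := fun k l hkl =>
    Nat.eq_of_mul_eq_mul_left ha hkl
  refine (hinj.hasSum_iff ?_).mp ?_
  · intro n hn
    have hnd : ¬ (0 < n ∧ a ∣ n) := by
      rintro ⟨-, k, rfl⟩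
      exact hn ⟨k, rfl⟩
    rw [if_neg hnd, Int.cast_zero, zero_mul]
  · convert h using 1
    funext k
    simp only [Function.comp]
    rcases Nat.eq_zero_or_pos k with rfl | hk
    · simp
    · rw [if_pos ⟨Nat.mul_pos ha hk, Dvd.intro k rfl⟩, Nat.mul_div_cancel_left k ha, pow_mul]
      simp

theorem hasSum_const_coeff (q : ℂ) :
    HasSum (fun n : ℕ => (((if n = 0 then 1 else 0 : ℤ)) : ℂ) * q ^ n) 1 := by
  have h := hasSum_single (f := fun n : ℕ => (((if n = 0 then 1 else 0 : ℤ)) : ℂ) * q ^ n) 0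
    (fun n hn => by simp [hn])
  simpa using h

/-- **The `q`-series of `12 ℘(aτ; ℤMτ + ℤ)/(2πi)²`.** -/
theorem hasSum_wp_qseries {M a : ℕ} (ha : 0 < a) (haM : a < M) (τ σ : ℍ)
    (hσ : (σ : ℂ) = (M : ℂ) * (τ : ℂ)) :
    HasSum (fun n : ℕ => ((tateCoeffZ M a n : ℤ) : ℂ) * ee τ ^ n)
      (12 * (℘[pairOf σ] ((a : ℂ) * τ) / (2 * π * I) ^ 2)) := by
  set q : ℂ := ee τ with hqdef
  have hq : ‖q‖ < 1 := norm_ee_lt_one τ.im_pos
  have hM : 0 < M := lt_of_le_of_lt (Nat.zero_le a) haM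
  -- the three regrouped sums
  obtain ⟨hP, hPs⟩ := hasSum_regroup_lambert hq (epsP M a) (fun i => M * (i + 1) + a)
    (fun i => by nlinarith) (fun i j => by simp only [epsP]; ring)
    (fun m d hm _ => by
      simp only [epsP]
      have : m ≤ M * m := Nat.le_mul_of_pos_left m hM
      omega)
  obtain ⟨hMm, hMs⟩ := hasSum_regroup_lambert hq (epsM M a) (fun i => M * (i + 1) - a)
    (fun i => by
      have h1 : (a + 1) * (i + 1) ≤ M * (i + 1) := Nat.mul_le_mul_right _ haM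
      have h2 : (a + 1) * (i + 1) = a * (i + 1) + (i + 1) := by ring
      have h3 : a ≤ a * (i + 1) := Nat.le_mul_of_pos_right a (Nat.succ_pos i)
      omega)
    (fun i j => by
      simp only [epsM]
      rw [Nat.mul_sub]
      congr 1 <;> ring)
    (fun m d hm hd => by
      simp only [epsM]
      have hdm : d ≤ m := Nat.le_of_dvd hm hd
      have h1 : a * d ≤ a * m := Nat.mul_le_mul_left a hdm
      have h2 : (a + 1) * m ≤ M * m := Nat.mul_le_mul_right m haM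
      have h3 : (a + 1) * m = a * m + m := by ring
      omega)
  obtain ⟨hZ, hZs⟩ := hasSum_regroup_lambert hq (epsZ M) (fun i => M * (i + 1))
    (fun i => Nat.le_mul_of_pos_left _ hM) (fun i j => by simp only [epsZ]; ring)
    (fun m d hm _ => by
      simp only [epsZ]
      exact Nat.le_mul_of_pos_left m hM)
  -- the analytic side
  have hz0 : 0 < ((a : ℂ) * (τ : ℂ)).im := by
    rw [im_natCast_mul]
    exact mul_pos (by exact_mod_cast ha) τ.im_pos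
  have hz1 : ((a : ℂ) * (τ : ℂ)).im < σ.im := by
    have : σ.im = ((M : ℂ) * (τ : ℂ)).im := by rw [← hσ]; rfl
    rw [this, im_natCast_mul, im_natCast_mul]
    exact mul_lt_mul_of_pos_right (by exact_mod_cast haM) τ.im_pos
  have hT := hasSum_wp_tate σ hz0 hz1
  have heσ : ee (σ : ℂ) = q ^ M := by rw [hσ, ee_nat_mul]
  have hez : ee ((a : ℂ) * (τ : ℂ)) = q ^ a := ee_nat_mul a τ
  have hfun : (fun n : ℕ => lam (ee σ ^ (n + 1) * ee ((a : ℂ) * τ)) +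
      lam (ee σ ^ (n + 1) / ee ((a : ℂ) * τ)) - 2 * lam (ee σ ^ (n + 1))) =
      fun n : ℕ => lam (q ^ (M * (n + 1) + a)) + lam (q ^ (M * (n + 1) - a)) -
        2 * lam (q ^ (M * (n + 1))) := by
    funext n
    have hq0 : q ≠ 0 := ee_ne_zero _
    have hle : a ≤ M * (n + 1) := by
      have : M ≤ M * (n + 1) := Nat.le_mul_of_pos_right M (Nat.succ_pos n)
      omega
    rw [heσ, hez, ← pow_mul, ← pow_add, pow_sub₀ q hq0 hle, div_eq_mul_inv]
  rw [hfun] at hT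
  have hT2 := ((hPs.hasSum.add hMs.hasSum).sub (hZs.hasSum.mul_left 2))
  have hval := hT.unique hT2
  -- assemble the power series
  have hA := (hasSum_const_coeff q).add (((hasSum_lam_pow hq ha).add hP).add hMm |>.mul_left 12)
  have hB := hA.sub (hZ.mul_left 24)
  have hfun2 : (fun n : ℕ => ((tateCoeffZ M a n : ℤ) : ℂ) * q ^ n) = fun n : ℕ =>
      (((if n = 0 then 1 else 0 : ℤ)) : ℂ) * q ^ n +
        12 * ((((if 0 < n ∧ a ∣ n then ((n / a : ℕ) : ℤ) else 0 : ℤ)) : ℂ) * q ^ n +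
          ((regroupCoeff (epsP M a) n : ℤ) : ℂ) * q ^ n +
          ((regroupCoeff (epsM M a) n : ℤ) : ℂ) * q ^ n) -
        24 * (((regroupCoeff (epsZ M) n : ℤ) : ℂ) * q ^ n) := by
    funext n
    simp only [tateCoeffZ]
    push_cast
    ring
  rw [hfun2]
  have hval2 : 12 * (℘[pairOf σ] ((a : ℂ) * τ) / (2 * π * I) ^ 2) =
      1 + 12 * (lam (q ^ a) + ∑' i : ℕ, lam (q ^ (M * (i + 1) + a)) +
        ∑' i : ℕ, lam (q ^ (M * (i + 1) - a))) - 24 * ∑' i : ℕ, lam (q ^ (M * (i + 1))) := by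
    have h5 : ℘[pairOf σ] ((a : ℂ) * τ) / (2 * π * I) ^ 2 =
        1 / 12 + lam (q ^ a) + (∑' i : ℕ, lam (q ^ (M * (i + 1) + a)) +
          ∑' i : ℕ, lam (q ^ (M * (i + 1) - a)) - 2 * ∑' i : ℕ, lam (q ^ (M * (i + 1)))) := by
      rw [← hval, hez]
      ring
    rw [h5]
    ring
  rw [hval2]
  exact hB

end

end Fermat.Agent.DS.Div
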