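import Mathlib
import Fermat.Agent.X0.QDict
import Fermat.Agent.X0.JFun
import Fermat.Agent.DS.X1.Series
import Fermat.Agent.DS.Div.TateSeries

/-!
# Programme III, X1-AN-1b (`DS/Div`, the `℘`-half), file 4: the analytic Weber functions

`weberAn M a τ = (E₄E₆/Δ)(Mτ) · 12 ℘(aτ; ℤMτ + ℤ)/(2πi)²`  (Shimura's normalised Weber function of the
point `aτ` of `ℂ/(ℤMτ+ℤ)`; weight `0`).

* `isQExp_weberAn (0 < a < M) : IsQExp (coeffMap (algebraMap ℚ ℂ) (weberQ M a)) (weberAn M a)` —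
  the `q`-expansion is helper23's formal series `weberQ M a` (`DS/X1/Defs.lean`); hence
  `weberAn_mdiff`, `isMerCusp_weberAn`, `qexpL_weberAn`;
* `weberAn_smul (γ ∈ Γ₀(M)) (b ≡ a·γ₀₀ mod M) : weberAn M a (γ • z) = weberAn M b z`,
  `weberAn_smul_Gamma1`, `weberAn_congr` (`a ≡ b`), `weberAn_neg` (`a ≡ -b`);
* `weberAnZ M : ZMod M → ℍ → ℂ` with `isQExp_weberAnZ`, `weberAnZ_smul`, `weberAnZ_neg`
  (the fields of `WeberAnalytic M` / `WeberAnData M`).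

Tools: `qExpansion_E6`, `isQExp_cAn` (`E₄E₆/Δ` has `q`-expansion `cUnit`), `cAn_smul` (weight `-2`);
`wp_homothety` (`℘[cΛ](cz) = c⁻²℘[Λ](z)`), `mem_lattice_smul_iff`; the general division values
`divVal N v₁ v₂ τ = ℘((v₁τ+v₂)/N; ℤτ+ℤ)` with `divVal_smul` (`SL₂(ℤ)`-equivariance, `v ↦ vγ`),
`divVal_add`, `divVal_congr` (periodicity mod `N`), `divVal_neg`.
-/

set_option autoImplicit false

namespace Fermat.Agent.DS.Div

open UpperHalfPlane ModularForm EisensteinSeries ModularFormClass HahnSeries ModularCurve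
open Fermat.Agent.S23 Fermat.Agent.S23.PrimEltQExp Fermat.Agent.X0 Fermat.Agent.DS.X1
open scoped MatrixGroups Manifold PeriodPair Real

noncomputable section

local notation "Δ" => ModularForm.discriminant

/-- The `q`-expansion of `E₆` is the integral series `eis6`. -/
theorem qExpansion_E6 : qExpansion 1 E₆ = eis6.map (Int.castRingHom ℂ) := by
  ext m
  rw [E_qExpansion_coeff (by norm_num) ⟨3, rfl⟩ m, PowerSeries.coeff_map]
  simp only [eis6, PowerSeries.coeff_mk]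
  by_cases hm : m = 0
  · simp [hm]
  · rw [if_neg hm, if_neg hm]
    have hb : bernoulli 6 = 1 / 42 := by decide +kernel
    rw [hb, ArithmeticFunction.sigma_apply]
    push_cast
    norm_num

theorem isNice_E6 : IsNice (E₆ : ℍ → ℂ) :=
  isNice_of_modularForm (Γ := 𝒮ℒ) one_mem_strictPeriods_SL E₆

/-- `E₄ E₆ / Δ`, weight `-2`, level one. -/
def cAn (z : ℍ) : ℂ := E₄ z * E₆ z / Δ z

theorem qFun_mul_cAn : qFun ^ 1 * cAn = (E₄ : ℍ → ℂ) * (E₆ : ℍ → ℂ) * etaInvFun := by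
  funext z
  simp only [pow_one, Pi.mul_apply, cAn, discriminant_eq_qFun_mul, etaInvFun,
    ofDisc_apply, etaFun]
  have h1 : qFun z ≠ 0 := qFun_ne_zero z
  have h2 : etaDisc (Function.Periodic.qParam 1 (z : ℂ)) ^ 24 ≠ 0 :=
    pow_ne_zero _ (etaDisc_ne_zero (qParam_mem_ball z))
  field_simp

theorem isNice_qFun_mul_cAn : IsNice (qFun ^ 1 * cAn) := by
  rw [qFun_mul_cAn]
  exact (isNice_E4.mul isNice_E6).mul isNice_etaInvFun

/-- `coeffMap` of an integral series. -/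
theorem coeffMap_ofInt (f : PowerSeries ℤ) :
    coeffMap (algebraMap ℚ ℂ) (ofInt f) =
      HahnSeries.ofPowerSeries ℤ ℂ (f.map (Int.castRingHom ℂ)) := by
  rw [ofInt, coeffMap_ofPowerSeries]
  congr 1

theorem coeffMap_cUnit :
    coeffMap (algebraMap ℚ ℂ) cUnit = laurentOf 1 (cNum.map (Int.castRingHom ℂ)) := by
  rw [cUnit_eq, map_mul, coeffMap_single, coeffMap_ofInt, laurentOf]
  congr 2
  simp

theorem isQExp_cAn : IsQExp (coeffMap (algebraMap ℚ ℂ) cUnit) cAn := by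
  rw [isQExp_iff]
  refine ⟨⟨1, isNice_qFun_mul_cAn⟩, ?_⟩
  rw [qexpL_eq isNice_qFun_mul_cAn, qFun_mul_cAn,
    (isNice_E4.mul isNice_E6).qExpansion_mul isNice_etaInvFun, isNice_E4.qExpansion_mul isNice_E6,
    qExpansion_E4, qExpansion_E6, qExpansion_etaInvFun, coeffMap_cUnit, cNum, map_mul, map_mul]


/-- `regroupCoeff (epsZ M) n = σ₁(n/M)` for `M ∣ n`, `n > 0`. -/
theorem regroupCoeff_epsZ {M : ℕ} (hM : 0 < M) (n : ℕ) :
    regroupCoeff (epsZ M) n =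
      if 0 < n ∧ M ∣ n then ∑ d ∈ (n / M).divisors, (d : ℤ) else 0 := by
  unfold regroupCoeff epsZ
  split_ifs with h
  · obtain ⟨hn, k, rfl⟩ := h
    have hk : 0 < k := Nat.pos_of_mul_pos_left hn
    rw [Nat.mul_div_cancel_left _ hM]
    have : ∀ m ∈ Finset.Icc 1 (M * k), (∑ d ∈ m.divisors, if M * m = M * k then (d : ℤ) else 0) =
        if m = k then ∑ d ∈ k.divisors, (d : ℤ) else 0 := by
      intro m _
      by_cases hmk : m = k
      · subst hmk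
        simp
      · have : M * m ≠ M * k := fun h => hmk (Nat.eq_of_mul_eq_mul_left hM h)
        simp [hmk, this]
    rw [Finset.sum_congr rfl this, Finset.sum_ite_eq' (Finset.Icc 1 (M * k)) k, if_pos]
    rw [Finset.mem_Icc]
    exact ⟨hk, Nat.le_mul_of_pos_left k hM⟩
  · apply Finset.sum_eq_zero
    intro m hm
    apply Finset.sum_eq_zero
    intro d _
    rw [if_neg]
    intro hmn
    apply h
    rw [Finset.mem_Icc] at hm
    exact ⟨by omega, ⟨m, hmn.symm⟩⟩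

variable (M : ℕ) [NeZero M]

/-- `12 · tateX M a + E₂(q^M)` as an integral power series. -/
def wpNum (a : ℕ) : PowerSeries ℤ := 12 * tateX M a + eis2.expand M (NeZero.ne M)

variable {M}

theorem coeff_wpNum {a : ℕ} (haM : a < M) (n : ℕ) :
    PowerSeries.coeff n (wpNum M a) = tateCoeffZ M a n := by
  have hM : 0 < M := NeZero.pos M
  have h12 : (12 : PowerSeries ℤ) = PowerSeries.C (12 : ℤ) := (map_ofNat PowerSeries.C 12).symm
  rw [wpNum, map_add, h12, PowerSeries.coeff_C_mul, coeff_tateX, PowerSeries.coeff_expand,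
    tateCoeffZ, regroupCoeff_epsZ hM]
  have h1 : (∑ m ∈ Finset.Icc 1 n, ∑ d ∈ m.divisors,
      ((if M * m + a * d = n then (d : ℤ) else 0) + (if M * m = n + a * d then (d : ℤ) else 0))) =
      regroupCoeff (epsP M a) n + regroupCoeff (epsM M a) n := by
    unfold regroupCoeff epsP epsM
    rw [← Finset.sum_add_distrib]
    refine Finset.sum_congr rfl fun m hm => ?_
    rw [← Finset.sum_add_distrib]
    refine Finset.sum_congr rfl fun d hd => ?_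
    have hdm : d ≤ m := Nat.divisor_le hd
    have had : a * d ≤ M * m := Nat.mul_le_mul haM.le hdm
    congr 1
    by_cases h : M * m = n + a * d
    · rw [if_pos h, if_pos (by omega)]
    · rw [if_neg h, if_neg (by omega)]
  rw [h1]
  have h2 : (if M ∣ n then PowerSeries.coeff (n / M) eis2 else 0) =
      (if n = 0 then 1 else 0) -
        24 * (if 0 < n ∧ M ∣ n then ∑ d ∈ (n / M).divisors, (d : ℤ) else 0) := by
    by_cases hn : n = 0
    · subst hn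
      simp [eis2]
    · have hn' : 0 < n := Nat.pos_of_ne_zero hn
      by_cases hd : M ∣ n
      · have hnM : n / M ≠ 0 := by
          obtain ⟨k, rfl⟩ := hd
          rw [Nat.mul_div_cancel_left _ hM]
          rintro rfl
          simp at hn
        rw [if_pos hd, if_neg hn, if_pos ⟨hn', hd⟩, eis2, PowerSeries.coeff_mk, if_neg hnM]
        ring
      · rw [if_neg hd, if_neg hn, if_neg (fun h => hd h.2)]
        ring
  rw [h2]
  ring

/-- the analytic function `12 ℘(aτ; ℤMτ + ℤ)/(2πi)²` -/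
def wpAn (M : ℕ) [NeZero M] (a : ℕ) (τ : ℍ) : ℂ :=
  12 * (℘[pairOf (scaleH M τ)] ((a : ℂ) * τ) / (2 * π * Complex.I) ^ 2)

theorem ee_eq_qParam (τ : ℂ) : ee τ = Function.Periodic.qParam 1 τ := by
  rw [ee, Function.Periodic.qParam]
  congr 1
  simp

theorem isQExp_ofInt_of_hasSum (P : PowerSeries ℤ) (f : ℍ → ℂ)
    (h : ∀ τ : ℍ, HasSum (fun n : ℕ => ((PowerSeries.coeff n P : ℤ) : ℂ) * ee τ ^ n) (f τ)) :
    IsQExp (coeffMap (algebraMap ℚ ℂ) (ofInt P)) f := by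
  intro τ
  have hq : Function.Periodic.qParam 1 (τ : ℂ) ≠ 0 := Function.Periodic.qParam_ne_zero _
  rw [hasSum_int_iff_nat (m := 0) ?_ hq]
  · have := h τ
    rw [ee_eq_qParam] at this
    simp only [Nat.cast_zero, sub_zero, pow_zero, one_mul]
    convert this using 3 with n
    rw [coeffMap_coeff, coeff_ofInt_natCast]
    simp
  · intro k hk
    rw [coeffMap_coeff, coeff_ofInt_of_neg _ (by simpa using hk), map_zero]


theorem ofInt_wpNum (M : ℕ) [NeZero M] (a : ℕ) :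
    ofInt (wpNum M a) = 12 * ofInt (tateX M a) + qExpand ℚ M (ofInt eis2) := by
  have h12 : ofInt (12 : PowerSeries ℤ) = (12 : LaurentSeries ℚ) := by
    have := ofInt_natCast 12
    exact_mod_cast this
  rw [wpNum, ofInt_add, ofInt_mul, h12, qExpand_ofInt]

theorem isQExp_wpAn {M : ℕ} [NeZero M] {a : ℕ} (ha : 0 < a) (haM : a < M) :
    IsQExp (coeffMap (algebraMap ℚ ℂ) (ofInt (wpNum M a))) (wpAn M a) := by
  refine isQExp_ofInt_of_hasSum _ _ fun τ => ?_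
  simp only [coeff_wpNum haM]
  exact hasSum_wp_qseries ha haM τ (scaleH M τ) (coe_scaleH M τ)

/-- **the analytic Weber function** `W_a(τ) = (E₄E₆/Δ)(Mτ) · 12 ℘(aτ; ℤMτ+ℤ)/(2πi)²`. -/
def weberAn (M : ℕ) [NeZero M] (a : ℕ) (τ : ℍ) : ℂ := cAn (scaleH M τ) * wpAn M a τ

theorem isQExp_cAn_scale (M : ℕ) [NeZero M] :
    IsQExp (coeffMap (algebraMap ℚ ℂ) (qExpand ℚ M cUnit)) (fun τ => cAn (scaleH M τ)) := by
  rw [coeffMap_qExpand]
  exact isQExp_cAn.scale M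

/-- **the `q`-expansion of the analytic Weber function is `weberQ M a`.** -/
theorem isQExp_weberAn {M : ℕ} [NeZero M] {a : ℕ} (ha : 0 < a) (haM : a < M) :
    IsQExp (coeffMap (algebraMap ℚ ℂ) (weberQ M a)) (weberAn M a) := by
  rw [weberQ, ← ofInt_wpNum, map_mul]
  exact (isQExp_cAn_scale M).mul (isQExp_wpAn ha haM)

theorem weberAn_mdiff {M : ℕ} [NeZero M] {a : ℕ} (ha : 0 < a) (haM : a < M) :
    MDiff (weberAn M a) := (isQExp_weberAn ha haM).mdiff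


/-- **Homothety of lattices**: if `L.lattice = c · L'.lattice` then `℘[L](c z) = c⁻² ℘[L'](z)`. -/
theorem wp_homothety (L L' : PeriodPair) (c : ℂ) (hc : c ≠ 0)
    (h : ∀ x : ℂ, x ∈ L'.lattice ↔ c * x ∈ L.lattice) (z : ℂ) :
    ℘[L] (c * z) = (c ^ 2)⁻¹ * ℘[L'] z := by
  unfold PeriodPair.weierstrassP
  let e : L'.lattice ≃ L.lattice :=
    { toFun := fun l => ⟨c * l, (h l).mp l.2⟩
      invFun := fun l => ⟨c⁻¹ * l, (h _).mpr (by rw [mul_inv_cancel_left₀ hc]; exact l.2)⟩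
      left_inv := fun l => Subtype.ext (by simp [hc])
      right_inv := fun l => Subtype.ext (by simp [hc]) }
  rw [← e.tsum_eq, ← tsum_mul_left]
  refine tsum_congr fun l => ?_
  show 1 / (c * z - c * (l : ℂ)) ^ 2 - 1 / (c * (l : ℂ)) ^ 2 =
    (c ^ 2)⁻¹ * (1 / (z - (l : ℂ)) ^ 2 - 1 / (l : ℂ) ^ 2)
  rw [← mul_sub, mul_pow, mul_pow, one_div, one_div, one_div, one_div, mul_inv, mul_inv, mul_sub]

/-- `℘` only depends on the lattice. -/
theorem wp_congr_lattice (L L' : PeriodPair) (h : L.lattice = L'.lattice) (z : ℂ) :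
    ℘[L] z = ℘[L'] z := by
  have := wp_homothety L L' 1 one_ne_zero (fun x => by rw [one_mul, h]) z
  simpa using this

/-- The lattice `ℤ(γτ) + ℤ` is `(cτ+d)⁻¹ (ℤτ + ℤ)`. -/
theorem mem_lattice_smul_iff (γ : SL(2, ℤ)) (τ : ℍ) (x : ℂ) :
    x ∈ (pairOf τ).lattice ↔ (denom γ τ)⁻¹ * x ∈ (pairOf (γ • τ)).lattice := by
  have hj : denom γ τ ≠ 0 := denom_ne_zero γ τ
  have hdet : (γ 0 0) * (γ 1 1) - (γ 0 1) * (γ 1 0) = 1 := by
    have := γ.det_coe
    rwa [Matrix.det_fin_two] at this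
  have hdetC : ((γ 0 0 : ℤ) : ℂ) * (γ 1 1 : ℤ) - (γ 0 1 : ℤ) * (γ 1 0 : ℤ) = 1 := by
    exact_mod_cast congrArg (Int.cast : ℤ → ℂ) hdet
  have hcoe : ((γ • τ : ℍ) : ℂ) = (((γ 0 0 : ℤ) : ℂ) * τ + (γ 0 1 : ℤ)) / denom γ τ := by
    rw [coe_specialLinearGroup_apply, ModularGroup.denom_apply]
    simp
  rw [PeriodPair.mem_lattice, PeriodPair.mem_lattice]
  simp only [pairOf_ω₁, pairOf_ω₂, mul_one]
  rw [hcoe]
  have hjd : denom γ τ = ((γ 1 0 : ℤ) : ℂ) * τ + (γ 1 1 : ℤ) := ModularGroup.denom_apply γ τ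
  constructor
  · rintro ⟨m, n, rfl⟩
    refine ⟨γ 1 1 * m - γ 1 0 * n, -(γ 0 1) * m + γ 0 0 * n, ?_⟩
    rw [eq_inv_mul_iff_mul_eq₀ hj, mul_add, mul_div_assoc', mul_div_cancel₀ _ hj]  
    rw [hjd]
    push_cast
    linear_combination ((m : ℂ) * τ + n) * hdetC
  · rintro ⟨m, n, hmn⟩
    refine ⟨m * γ 0 0 + n * γ 1 0, m * γ 0 1 + n * γ 1 1, ?_⟩
    generalize denom γ τ = j at hj hmn hjd
    have h2 : x = j * ((m : ℂ) * ((((γ 0 0 : ℤ) : ℂ) * τ + (γ 0 1 : ℤ)) / j) + n) := by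
      rw [hmn, mul_inv_cancel_left₀ hj]
    have h3 : j * ((m : ℂ) * ((((γ 0 0 : ℤ) : ℂ) * τ + (γ 0 1 : ℤ)) / j) + n) =
        (m : ℂ) * (((γ 0 0 : ℤ) : ℂ) * τ + (γ 0 1 : ℤ)) + n * j := by
      field_simp
    rw [h2, h3, hjd]
    push_cast
    ring

/-- the `N`-division value `℘((v₁τ + v₂)/N; ℤτ + ℤ)` -/
def divVal (N : ℕ) (v₁ v₂ : ℤ) (τ : ℍ) : ℂ :=
  ℘[pairOf τ] (((v₁ : ℂ) * τ + v₂) / N)

/-- **`SL₂(ℤ)`-equivariance of the division values** (weight `2`, `v ↦ vγ`). -/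
theorem divVal_smul (N : ℕ) (v₁ v₂ : ℤ) (γ : SL(2, ℤ)) (τ : ℍ) :
    divVal N v₁ v₂ (γ • τ) =
      denom γ τ ^ 2 * divVal N (v₁ * γ 0 0 + v₂ * γ 1 0) (v₁ * γ 0 1 + v₂ * γ 1 1) τ := by
  have hj : denom γ τ ≠ 0 := denom_ne_zero γ τ
  have hcoe : ((γ • τ : ℍ) : ℂ) = (((γ 0 0 : ℤ) : ℂ) * τ + (γ 0 1 : ℤ)) / denom γ τ := by
    rw [coe_specialLinearGroup_apply, ModularGroup.denom_apply]
    simp
  have hjd : denom γ τ = ((γ 1 0 : ℤ) : ℂ) * τ + (γ 1 1 : ℤ) := ModularGroup.denom_apply γ τ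
  have hpt : ((v₁ : ℂ) * ((γ • τ : ℍ) : ℂ) + v₂) / N =
      (denom γ τ)⁻¹ * ((((v₁ * γ 0 0 + v₂ * γ 1 0 : ℤ) : ℂ) * τ +
        ((v₁ * γ 0 1 + v₂ * γ 1 1 : ℤ) : ℂ)) / N) := by
    rw [hcoe]
    generalize denom γ τ = j at hj hjd
    have h3 : (v₁ : ℂ) * ((((γ 0 0 : ℤ) : ℂ) * τ + (γ 0 1 : ℤ)) / j) + v₂ =
        j⁻¹ * ((v₁ : ℂ) * (((γ 0 0 : ℤ) : ℂ) * τ + (γ 0 1 : ℤ)) + v₂ * j) := by
      field_simp
    rw [h3, hjd, mul_div_assoc]
    push_cast
    ring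
  unfold divVal
  rw [hpt, wp_homothety (pairOf (γ • τ)) (pairOf τ) (denom γ τ)⁻¹ (inv_ne_zero hj)
    (mem_lattice_smul_iff γ τ)]
  rw [inv_pow, inv_inv]

theorem natCast_mul_mem_lattice (τ : ℍ) (k l : ℤ) : (k : ℂ) * τ + l ∈ (pairOf τ).lattice := by
  rw [PeriodPair.mem_lattice]
  exact ⟨k, l, by simp⟩

/-- periodicity of the division values in `v` modulo `N` -/
theorem divVal_add (N : ℕ) [NeZero N] (v₁ v₂ k l : ℤ) (τ : ℍ) :
    divVal N (v₁ + N * k) (v₂ + N * l) τ = divVal N v₁ v₂ τ := by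
  have hN : (N : ℂ) ≠ 0 := Nat.cast_ne_zero.mpr (NeZero.ne N)
  unfold divVal
  have : (((v₁ + N * k : ℤ) : ℂ) * τ + ((v₂ + N * l : ℤ) : ℂ)) / N =
      ((v₁ : ℂ) * τ + v₂) / N + ((⟨(k : ℂ) * τ + l, natCast_mul_mem_lattice τ k l⟩ :
        (pairOf τ).lattice) : ℂ) := by
    push_cast
    field_simp
    ring
  rw [this, PeriodPair.weierstrassP_add_coe]

theorem divVal_neg (N : ℕ) (v₁ v₂ : ℤ) (τ : ℍ) : divVal N (-v₁) (-v₂) τ = divVal N v₁ v₂ τ := by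
  unfold divVal
  rw [← PeriodPair.weierstrassP_neg]
  congr 1
  push_cast
  ring

theorem divVal_congr (N : ℕ) [NeZero N] {v₁ v₂ w₁ w₂ : ℤ} (h₁ : (v₁ : ZMod N) = w₁)
    (h₂ : (v₂ : ZMod N) = w₂) (τ : ℍ) : divVal N v₁ v₂ τ = divVal N w₁ w₂ τ := by
  obtain ⟨k, hk⟩ : (N : ℤ) ∣ v₁ - w₁ := by
    rw [← ZMod.intCast_zmod_eq_zero_iff_dvd]
    push_cast
    rw [h₁, sub_self]
  obtain ⟨l, hl⟩ : (N : ℤ) ∣ v₂ - w₂ := by
    rw [← ZMod.intCast_zmod_eq_zero_iff_dvd]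
    push_cast
    rw [h₂, sub_self]
  have e1 : v₁ = w₁ + N * k := by omega
  have e2 : v₂ = w₂ + N * l := by omega
  rw [e1, e2, divVal_add]


/-! ### the action of `Γ₀(M)` on the Weber functions -/

theorem levelOne_smul {k : ℤ} (f : ModularForm 𝒮ℒ k) (γ : SL(2, ℤ)) (z : ℍ) :
    f (γ • z) = denom γ z ^ k * f z := by
  have h := congrFun (levelOne_slash f γ) z
  rw [ModularForm.SL_slash_apply] at h
  have hj : denom γ z ≠ 0 := denom_ne_zero γ z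
  rw [← h, mul_comm, mul_assoc, ← zpow_add₀ hj]
  simp

theorem discriminant_smul (γ : SL(2, ℤ)) (z : ℍ) : Δ (γ • z) = denom γ z ^ (12 : ℤ) * Δ z := by
  have h := congrFun (discriminant_slash γ) z
  rw [ModularForm.SL_slash_apply] at h
  have hj : denom γ z ≠ 0 := denom_ne_zero γ z
  rw [← h, mul_comm, mul_assoc, ← zpow_add₀ hj]
  simp

/-- `E₄E₆/Δ` has weight `-2`. -/
theorem cAn_smul (γ : SL(2, ℤ)) (z : ℍ) : cAn (γ • z) = (denom γ z ^ 2)⁻¹ * cAn z := by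
  have hj : denom γ z ≠ 0 := denom_ne_zero γ z
  have hΔ : Δ z ≠ 0 := discriminant_ne_zero z
  unfold cAn
  rw [levelOne_smul E₄, levelOne_smul E₆, discriminant_smul]
  have e4 : denom γ z ^ (4 : ℤ) = denom γ z ^ 4 := by norm_cast
  have e6 : denom γ z ^ (6 : ℤ) = denom γ z ^ 6 := by norm_cast
  have e12 : denom γ z ^ (12 : ℤ) = denom γ z ^ 12 := by norm_cast
  rw [e4, e6, e12]
  field_simp

/-- For `γ ∈ Γ₀(M)`: `M · γτ = γ' · (Mτ)` with `γ' = (a, Mb; c/M, d)`. -/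
theorem exists_scaleH_smul_entries {M : ℕ} [NeZero M] (γ : SL(2, ℤ))
    (hγ : γ ∈ CongruenceSubgroup.Gamma0 M) :
    ∃ γ' : SL(2, ℤ), γ' 0 0 = γ 0 0 ∧ γ' 0 1 = γ 0 1 * M ∧ γ' 1 0 * M = γ 1 0 ∧ γ' 1 1 = γ 1 1 ∧
      ∀ z : ℍ, scaleH M (γ • z) = γ' • scaleH M z ∧ denom γ' (scaleH M z) = denom γ z := by
  rw [CongruenceSubgroup.Gamma0_mem] at hγ
  obtain ⟨c', hc'⟩ : (M : ℤ) ∣ γ 1 0 := (ZMod.intCast_zmod_eq_zero_iff_dvd _ _).mp hγ
  have hdet : (γ 0 0) * (γ 1 1) - (γ 0 1) * (γ 1 0) = 1 := by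
    have := γ.det_coe
    rwa [Matrix.det_fin_two] at this
  have hdet' : Matrix.det !![γ 0 0, γ 0 1 * M; c', γ 1 1] = 1 := by
    rw [Matrix.det_fin_two_of]
    rw [hc'] at hdet
    linarith [hdet]
  let γ' : SL(2, ℤ) := ⟨!![γ 0 0, γ 0 1 * M; c', γ 1 1], hdet'⟩
  have h00 : γ' 0 0 = γ 0 0 := rfl
  have h01 : γ' 0 1 = γ 0 1 * M := rfl
  have h10 : γ' 1 0 = c' := rfl
  have h11 : γ' 1 1 = γ 1 1 := rfl
  refine ⟨γ', h00, h01, by rw [h10, hc', mul_comm], h11, fun z => ⟨?_, ?_⟩⟩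
  · apply UpperHalfPlane.ext
    rw [coe_scaleH, coe_specialLinearGroup_apply, coe_specialLinearGroup_apply γ', coe_scaleH,
      h00, h01, h10, h11, hc']
    simp only [algebraMap_int_eq, eq_intCast, Int.cast_mul, Int.cast_natCast]
    push_cast
    rw [mul_div_assoc']
    congr 1 <;> ring
  · rw [ModularGroup.denom_apply, ModularGroup.denom_apply, h10, h11, hc', coe_scaleH]
    push_cast
    ring

theorem wpAn_eq_divVal (M : ℕ) [NeZero M] (a : ℕ) (τ : ℍ) :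
    wpAn M a τ = 12 * (divVal M a 0 (scaleH M τ) / (2 * π * Complex.I) ^ 2) := by
  have hM : (M : ℂ) ≠ 0 := Nat.cast_ne_zero.mpr (NeZero.ne M)
  unfold wpAn divVal
  congr 3
  rw [coe_scaleH]
  push_cast
  field_simp
  ring

/-- **`W_a(γτ) = W_{a·a_γ}(τ)` for `γ ∈ Γ₀(M)`.** -/
theorem weberAn_smul {M : ℕ} [NeZero M] (γ : SL(2, ℤ)) (hγ : γ ∈ CongruenceSubgroup.Gamma0 M)
    (a b : ℕ) (hab : (b : ZMod M) = (a : ZMod M) * ((γ 0 0 : ℤ) : ZMod M)) (z : ℍ) :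
    weberAn M a (γ • z) = weberAn M b z := by
  obtain ⟨γ', h00, h01, -, -, hz⟩ := exists_scaleH_smul_entries γ hγ
  obtain ⟨hz1, hz2⟩ := hz z
  have hj : denom γ z ≠ 0 := denom_ne_zero γ z
  unfold weberAn
  rw [wpAn_eq_divVal, wpAn_eq_divVal, hz1, cAn_smul, divVal_smul, hz2, h00, h01]
  have hcong : divVal M ((a : ℤ) * γ 0 0 + 0 * γ' 1 0) ((a : ℤ) * (γ 0 1 * M) + 0 * γ' 1 1)
      (scaleH M z) = divVal M (b : ℤ) 0 (scaleH M z) := by
    apply divVal_congr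
    · push_cast
      rw [hab]
      simp
    · push_cast
      simp
  rw [hcong]
  have hj2 : denom γ z ^ 2 ≠ 0 := pow_ne_zero _ hj
  field_simp

theorem weberAn_congr {M : ℕ} [NeZero M] {a b : ℕ} (h : (a : ZMod M) = b) :
    weberAn M a = weberAn M b := by
  funext z
  unfold weberAn
  rw [wpAn_eq_divVal, wpAn_eq_divVal, divVal_congr M (v₁ := a) (w₁ := b) (v₂ := 0) (w₂ := 0)
    (by exact_mod_cast h) rfl]

/-- `W_a = W_{-a}`: the Weber function is even. -/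
theorem weberAn_neg {M : ℕ} [NeZero M] {a b : ℕ} (h : (a : ZMod M) = -b) :
    weberAn M a = weberAn M b := by
  funext z
  unfold weberAn
  rw [wpAn_eq_divVal, wpAn_eq_divVal, ← divVal_neg M (b : ℤ) 0,
    divVal_congr M (v₁ := a) (w₁ := -(b : ℤ)) (v₂ := 0) (w₂ := -0)
    (by push_cast; exact_mod_cast h) (by simp)]

/-- **`Γ₁(M)`-invariance of the Weber functions.** -/
theorem weberAn_smul_Gamma1 {M : ℕ} [NeZero M] (γ : SL(2, ℤ))
    (hγ : γ ∈ CongruenceSubgroup.Gamma1 M) (a : ℕ) (z : ℍ) :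
    weberAn M a (γ • z) = weberAn M a z := by
  refine weberAn_smul γ (CongruenceSubgroup.Gamma1_in_Gamma0 M hγ) a a ?_ z
  rw [CongruenceSubgroup.Gamma1_mem] at hγ
  rw [hγ.1, mul_one]

theorem isMerCusp_weberAn {M : ℕ} [NeZero M] {a : ℕ} (ha : 0 < a) (haM : a < M) :
    IsMerCusp (weberAn M a) := (isQExp_weberAn ha haM).isMerCusp

theorem qexpL_weberAn {M : ℕ} [NeZero M] {a : ℕ} (ha : 0 < a) (haM : a < M) :
    qexpL (weberAn M a) = coeffMap (algebraMap ℚ ℂ) (weberQ M a) :=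
  (isQExp_weberAn ha haM).qexpL_eq

/-! ### the `ℤ/M`-indexed family -/

/-- the Weber functions indexed by `ℤ/M` -/
def weberAnZ (M : ℕ) [NeZero M] (x : ZMod M) : ℍ → ℂ := weberAn M x.val

theorem weberAnZ_natCast (M : ℕ) [NeZero M] (a : ℕ) : weberAnZ M (a : ZMod M) = weberAn M a :=
  weberAn_congr (by rw [ZMod.natCast_val, ZMod.cast_id', id])

theorem isQExp_weberAnZ {M : ℕ} [NeZero M] (a : ℕ) (ha : 0 < a) (haM : a < M) :
    IsQExp (coeffMap (algebraMap ℚ ℂ) (weberQ M a)) (weberAnZ M (a : ZMod M)) := by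
  rw [weberAnZ_natCast]
  exact isQExp_weberAn ha haM

theorem weberAnZ_smul {M : ℕ} [NeZero M] (γ : SL(2, ℤ)) (hγ : γ ∈ CongruenceSubgroup.Gamma0 M)
    (x : ZMod M) (τ : ℍ) :
    weberAnZ M x (γ • τ) = weberAnZ M (x * ((γ 0 0 : ℤ) : ZMod M)) τ := by
  unfold weberAnZ
  refine weberAn_smul γ hγ _ _ ?_ τ
  rw [ZMod.natCast_val, ZMod.cast_id', id, ZMod.natCast_val, ZMod.cast_id', id]

theorem weberAnZ_neg (M : ℕ) [NeZero M] (x : ZMod M) : weberAnZ M (-x) = weberAnZ M x := by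
  unfold weberAnZ
  refine weberAn_neg ?_
  rw [ZMod.natCast_val, ZMod.cast_id', id, ZMod.natCast_val, ZMod.cast_id', id]

end

end Fermat.Agent.DS.Div
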