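import Mathlib
import Fermat.Agent.DS.Div.Weber
import Fermat.Agent.X0.QExpGamma

/-!
# Programme III, X1-AN-1b (`DS/Div`, the `℘`-half), file 5: growth at every cusp

* `hasSum_wp_tate_sym` : the Tate expansion of `℘` in the symmetric range `-Im σ < Im z < Im σ`;
* `norm_wp_sub_rowS_le`, `norm_divVal_le`, `isBoundedAtImInfty_divVal` : every division value
  `divVal N v₁ v₂` is bounded at `i∞`;
* `thetaV N v₁ v₂ = (E₄E₆/Δ) · 12 ℘((v₁τ+v₂)/N)/(2πi)²` (weight `0`, level `Γ(N)`), `thetaV_smul`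
  (`θ_v(γτ) = θ_{vγ}(τ)`, all `γ ∈ SL₂(ℤ)`), `thetaV_congr`, `thetaV_neg`,
  `weberAn_eq_thetaV : weberAn M a τ = thetaV M a 0 (scaleH M τ)`;
* `hasOrdInf_cAn`, `hasOrdInf_comp_triH`, `isBoundedAtImInfty_comp_triH`;
* **`thetaV_scale_cusp_bound`, `weberAn_cusp_bound`, `weberAn_scale_cusp_bound`** :
  `∀ γ : SL(2,ℤ), ∃ m, IsBoundedAtImInfty (fun z => Δ z ^ m * weberAn M a (γ • z))`
  (resp. `… weberAn M a (scaleH p (γ • z))`): the generator case of the hypothesis `hb` of the degree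
  theorem `isSepVar_gen`.
-/

set_option autoImplicit false

namespace Fermat.Agent.DS.Div

open Complex
open UpperHalfPlane hiding I
open scoped Real PeriodPair Nat MatrixGroups

noncomputable section

/-- **The Tate expansion of `℘`, symmetric range** `-Im σ < Im z < Im σ` (the row at `0` is kept as
`rowS z`). -/
theorem hasSum_wp_tate_sym (σ : ℍ) {z : ℂ} (hz0 : -σ.im < z.im) (hz1 : z.im < σ.im) :
    HasSum (fun n : ℕ => lam (ee σ ^ (n + 1) * ee z) + lam (ee σ ^ (n + 1) / ee z) -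
        2 * lam (ee σ ^ (n + 1)))
      ((℘[pairOf σ] z - rowS z + (π : ℂ) ^ 2 / 3) / (2 * π * I) ^ 2) := by
  set g : ℤ → ℂ := fun m => rowS ((m : ℂ) * σ - z) - rowS ((m : ℂ) * σ) with hg
  have hrows : HasSum g (℘[pairOf σ] z) := hasSum_wp_rows σ z
  have h1 := hrows.nat_add_neg
  have h2 := (hasSum_nat_add_iff' 1).mpr h1
  simp only [Finset.range_one, Finset.sum_singleton, Nat.cast_zero, neg_zero] at h2
  have hg0 : g 0 = rowS z - (π : ℂ) ^ 2 / 3 := by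
    simp only [hg, Int.cast_zero, zero_mul, zero_sub]
    rw [rowS_neg, rowS_zero]
  have hrow : ∀ n : ℕ, g ((n + 1 : ℕ) : ℤ) + g (-((n + 1 : ℕ) : ℤ)) =
      (2 * π * I) ^ 2 * (lam (ee σ ^ (n + 1) * ee z) + lam (ee σ ^ (n + 1) / ee z) -
        2 * lam (ee σ ^ (n + 1))) := by
    intro n
    have hN : (1 : ℝ) ≤ ((n + 1 : ℕ) : ℝ) := by exact_mod_cast Nat.succ_le_succ (Nat.zero_le n)
    have hσim : 0 < (σ : ℂ).im := σ.im_pos
    have him1 : (((n + 1 : ℕ) : ℂ) * (σ : ℂ)).im = ((n + 1 : ℕ) : ℝ) * (σ : ℂ).im :=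
      im_natCast_mul _ _
    have hpos1 : 0 < (((n + 1 : ℕ) : ℂ) * (σ : ℂ)).im := by
      rw [him1]; positivity
    have hge : (σ : ℂ).im ≤ (((n + 1 : ℕ) : ℂ) * (σ : ℂ)).im := by
      rw [him1]; nlinarith
    have hpos2 : 0 < (((n + 1 : ℕ) : ℂ) * (σ : ℂ) - z).im := by
      rw [Complex.sub_im]
      have : z.im < (σ : ℂ).im := hz1
      linarith
    have hpos3 : 0 < (((n + 1 : ℕ) : ℂ) * (σ : ℂ) + z).im := by
      rw [Complex.add_im]
      have : -(σ : ℂ).im < z.im := hz0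
      linarith
    have e1 : ee (((n + 1 : ℕ) : ℂ) * (σ : ℂ) - z) = ee σ ^ (n + 1) / ee z := by
      rw [sub_eq_add_neg, ee_add, ee_neg, ee_nat_mul, div_eq_mul_inv]
    have e2 : ee (((n + 1 : ℕ) : ℂ) * (σ : ℂ) + z) = ee σ ^ (n + 1) * ee z := by
      rw [ee_add, ee_nat_mul]
    have e3 : ee (((n + 1 : ℕ) : ℂ) * (σ : ℂ)) = ee σ ^ (n + 1) := ee_nat_mul _ _
    have hA : g ((n + 1 : ℕ) : ℤ) = (2 * π * I) ^ 2 * lam (ee σ ^ (n + 1) / ee z) -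
        (2 * π * I) ^ 2 * lam (ee σ ^ (n + 1)) := by
      simp only [hg, Int.cast_natCast]
      rw [rowS_eq_lam hpos2, rowS_eq_lam hpos1, e1, e3]
    have hB : g (-((n + 1 : ℕ) : ℤ)) = (2 * π * I) ^ 2 * lam (ee σ ^ (n + 1) * ee z) -
        (2 * π * I) ^ 2 * lam (ee σ ^ (n + 1)) := by
      simp only [hg, Int.cast_neg, Int.cast_natCast]
      have r1 : rowS (-((n + 1 : ℕ) : ℂ) * (σ : ℂ) - z) =
          rowS (((n + 1 : ℕ) : ℂ) * (σ : ℂ) + z) := by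
        rw [← rowS_neg]; congr 1; ring
      have r2 : rowS (-((n + 1 : ℕ) : ℂ) * (σ : ℂ)) = rowS (((n + 1 : ℕ) : ℂ) * (σ : ℂ)) := by
        rw [← rowS_neg]; congr 1; ring
      rw [r1, r2, rowS_eq_lam hpos3, rowS_eq_lam hpos1, e2, e3]
    rw [hA, hB]
    ring
  have h3 := h2.mul_left ((2 * π * I) ^ 2)⁻¹
  have hfun : (fun n : ℕ => lam (ee σ ^ (n + 1) * ee z) + lam (ee σ ^ (n + 1) / ee z) -
      2 * lam (ee σ ^ (n + 1))) =
      fun i : ℕ => ((2 * π * I) ^ 2)⁻¹ * (g ((i + 1 : ℕ) : ℤ) + g (-((i + 1 : ℕ) : ℤ))) := by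
    funext n
    rw [hrow n, ← mul_assoc, inv_mul_cancel₀ two_pi_I_sq_ne_zero, one_mul]
  have hval : (℘[pairOf σ] z - rowS z + (π : ℂ) ^ 2 / 3) / (2 * π * I) ^ 2 =
      ((2 * π * I) ^ 2)⁻¹ * (℘[pairOf σ] z + g 0 - (g 0 + g 0)) := by
    rw [hg0, div_eq_inv_mul]
    congr 1
    ring
  rw [hfun, hval]
  exact h3

/-- `‖λ(x)‖ ≤ 4‖x‖` for `‖x‖ ≤ 1/2`. -/
theorem norm_lam_le {x : ℂ} (hx : ‖x‖ ≤ 1 / 2) : ‖lam x‖ ≤ 4 * ‖x‖ := by
  have hx1 : ‖x‖ < 1 := lt_of_le_of_lt hx (by norm_num)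
  rw [lam_eq hx1, norm_div, norm_pow]
  have h1 : 1 / 2 ≤ ‖1 - x‖ := by
    have := norm_sub_norm_le (1 : ℂ) x
    rw [norm_one] at this
    linarith
  have h2 : 1 / 4 ≤ ‖1 - x‖ ^ 2 := by nlinarith
  rw [div_le_iff₀ (by linarith)]
  nlinarith [norm_nonneg x]

theorem norm_ee_le_one {u : ℂ} (hu : 0 ≤ u.im) : ‖ee u‖ ≤ 1 := by
  rw [norm_ee, Real.exp_le_one_iff]
  have := Real.pi_pos
  nlinarith

theorem ee_sub (u v : ℂ) : ee (u - v) = ee u / ee v := by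
  rw [sub_eq_add_neg, ee_add, ee_neg, div_eq_mul_inv]

/-- the tail of the Tate expansion is uniformly small -/
theorem norm_wp_sub_rowS_le (σ : ℍ) {z : ℂ} {ρ : ℝ} (hρ : ρ ≤ 1 / 2) (hz0 : 0 ≤ z.im)
    (hz1 : z.im < σ.im) (hQ : ‖ee σ‖ ≤ ρ) (hQz : ‖ee σ / ee z‖ ≤ ρ) :
    ‖(℘[pairOf σ] z - rowS z + (π : ℂ) ^ 2 / 3) / (2 * π * I) ^ 2‖ ≤ 16 := by
  have hρ0 : 0 ≤ ρ := le_trans (norm_nonneg _) hQ
  have hρ1 : ρ < 1 := lt_of_le_of_lt hρ (by norm_num)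
  have hsum := hasSum_wp_tate_sym σ (z := z) (by linarith [σ.im_pos]) hz1
  have hgeo : HasSum (fun n : ℕ => 16 * ρ ^ (n + 1)) (16 * (ρ * (1 - ρ)⁻¹)) := by
    have h := ((hasSum_geometric_of_lt_one hρ0 hρ1).mul_left ρ).mul_left 16
    refine h.congr_fun fun n => ?_
    rw [pow_succ]
    ring
  have hz : ‖ee z‖ ≤ 1 := norm_ee_le_one hz0
  have hpow : ∀ n : ℕ, ρ ^ (n + 1) ≤ 1 / 2 := fun n =>
    le_trans (pow_le_of_le_one hρ0 hρ1.le (Nat.succ_ne_zero n)) hρ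
  have hbound : ∀ n : ℕ, ‖lam (ee σ ^ (n + 1) * ee z) + lam (ee σ ^ (n + 1) / ee z) -
      2 * lam (ee σ ^ (n + 1))‖ ≤ 16 * ρ ^ (n + 1) := by
    intro n
    have hc : ‖ee σ ^ (n + 1)‖ ≤ ρ ^ (n + 1) := by
      rw [norm_pow]
      exact pow_le_pow_left₀ (norm_nonneg _) hQ _
    have ha : ‖ee σ ^ (n + 1) * ee z‖ ≤ ρ ^ (n + 1) := by
      rw [norm_mul]
      calc ‖ee σ ^ (n + 1)‖ * ‖ee z‖ ≤ ρ ^ (n + 1) * 1 :=
            mul_le_mul hc hz (norm_nonneg _) (pow_nonneg hρ0 _)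
        _ = ρ ^ (n + 1) := mul_one _
    have hb : ‖ee σ ^ (n + 1) / ee z‖ ≤ ρ ^ (n + 1) := by
      have : ee σ ^ (n + 1) / ee z = ee σ ^ n * (ee σ / ee z) := by
        rw [pow_succ]; ring
      rw [this, norm_mul, norm_pow, pow_succ]
      exact mul_le_mul (pow_le_pow_left₀ (norm_nonneg _) hQ _) hQz (norm_nonneg _)
        (pow_nonneg hρ0 _)
    have la := norm_lam_le (le_trans ha (hpow n))
    have lb := norm_lam_le (le_trans hb (hpow n))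
    have lc := norm_lam_le (le_trans hc (hpow n))
    calc ‖lam (ee σ ^ (n + 1) * ee z) + lam (ee σ ^ (n + 1) / ee z) - 2 * lam (ee σ ^ (n + 1))‖
        ≤ ‖lam (ee σ ^ (n + 1) * ee z)‖ + ‖lam (ee σ ^ (n + 1) / ee z)‖ +
            ‖2 * lam (ee σ ^ (n + 1))‖ :=
          le_trans (norm_sub_le _ _) (add_le_add_left (norm_add_le _ _) _)
      _ ≤ 4 * ρ ^ (n + 1) + 4 * ρ ^ (n + 1) + 2 * (4 * ρ ^ (n + 1)) := by
          rw [norm_mul, Complex.norm_ofNat]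
          nlinarith [norm_nonneg (lam (ee σ ^ (n + 1)))]
      _ = 16 * ρ ^ (n + 1) := by ring
  have h := hsum.norm_le_of_bounded hgeo hbound
  refine le_trans h ?_
  have h1 : 0 < 1 - ρ := by linarith
  have h2 : ρ * (1 - ρ)⁻¹ ≤ 1 := by
    rw [← div_eq_mul_inv, div_le_one h1]
    linarith
  linarith

theorem exp_neg_two_pi_le_half : Real.exp (-(2 * π)) ≤ 1 / 2 := by
  have h1 : 1 + 2 * π ≤ Real.exp (2 * π) := by
    have := Real.add_one_le_exp (2 * π)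
    linarith
  have h2 : (2 : ℝ) ≤ Real.exp (2 * π) := by
    have := Real.pi_gt_three
    linarith
  rw [Real.exp_neg, inv_le_comm₀ (Real.exp_pos _) (by norm_num)]
  simpa using h2

/-- **the division values are bounded at `i∞`** (reduced range `0 ≤ v₁ < N`). -/
theorem norm_divVal_le (N : ℕ) [NeZero N] (v₁ v₂ : ℤ) (h0 : 0 ≤ v₁) (h1 : v₁ < N) (σ : ℍ)
    (hσ : (N : ℝ) ≤ σ.im) :
    ‖divVal N v₁ v₂ σ‖ ≤ 100 * π ^ 2 + ‖rowS ((v₂ : ℂ) / N)‖ := by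
  have hNpos : (0 : ℝ) < N := Nat.cast_pos.mpr (NeZero.pos N)
  have hN0 : (N : ℂ) ≠ 0 := Nat.cast_ne_zero.mpr (NeZero.ne N)
  have hπ := Real.pi_pos
  have hσpos : 0 < σ.im := σ.im_pos
  set z : ℂ := ((v₁ : ℂ) * σ + v₂) / N with hz
  have hzim : z.im = (v₁ : ℝ) * σ.im / N := by
    have : z = (((v₁ : ℝ) * σ.re + v₂) / N : ℝ) + ((v₁ : ℝ) * σ.im / N : ℝ) * I := by
      rw [hz]
      apply Complex.ext <;> simp [Complex.div_re, Complex.div_im, Complex.normSq]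
    rw [this]
    simp
  have hv0 : (0 : ℝ) ≤ v₁ := by exact_mod_cast h0
  have hv1 : (v₁ : ℝ) + 1 ≤ N := by exact_mod_cast h1
  have hz0 : 0 ≤ z.im := by rw [hzim]; positivity
  have hz1 : z.im < σ.im := by
    rw [hzim, div_lt_iff₀ hNpos]
    nlinarith
  set ρ : ℝ := Real.exp (-(2 * π) * (σ.im / N)) with hρdef
  have hρ : ρ ≤ 1 / 2 := by
    refine le_trans ?_ exp_neg_two_pi_le_half
    rw [hρdef]
    apply Real.exp_le_exp.mpr
    have : 1 ≤ σ.im / N := by rw [le_div_iff₀ hNpos]; linarith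
    nlinarith
  have hQ : ‖ee σ‖ ≤ ρ := by
    rw [norm_ee, hρdef]
    apply Real.exp_le_exp.mpr
    have : σ.im / N ≤ σ.im := div_le_self hσpos.le (by exact_mod_cast NeZero.one_le)
    have h3 : (σ : ℂ).im = σ.im := rfl
    rw [h3]
    nlinarith
  have hQz : ‖ee σ / ee z‖ ≤ ρ := by
    rw [← ee_sub, norm_ee, hρdef]
    apply Real.exp_le_exp.mpr
    rw [Complex.sub_im, hzim]
    have h3 : (σ : ℂ).im = σ.im := rfl
    rw [h3]
    have h4 : σ.im / N ≤ σ.im - (v₁ : ℝ) * σ.im / N := by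
      rw [div_le_iff₀ hNpos, sub_mul, div_mul_cancel₀ _ hNpos.ne']
      nlinarith
    nlinarith
  have hmain := norm_wp_sub_rowS_le σ hρ hz0 hz1 hQ hQz
  -- the row at `0`
  have hrow : ‖rowS z‖ ≤ 8 * π ^ 2 + ‖rowS ((v₂ : ℂ) / N)‖ := by
    rcases h0.eq_or_lt with hv | hv
    · have : z = (v₂ : ℂ) / N := by rw [hz, ← hv]; simp
      rw [this]
      have : 0 ≤ 8 * π ^ 2 := by positivity
      linarith
    · have hv' : (1 : ℝ) ≤ v₁ := by exact_mod_cast hv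
      have hzpos : 0 < z.im := by rw [hzim]; positivity
      have hez : ‖ee z‖ ≤ ρ := by
        rw [norm_ee, hρdef]
        apply Real.exp_le_exp.mpr
        rw [hzim]
        have : σ.im / N ≤ (v₁ : ℝ) * σ.im / N := by
          apply div_le_div_of_nonneg_right _ hNpos.le
          nlinarith
        nlinarith
      rw [rowS_eq_lam hzpos, norm_mul, two_pi_I_sq, norm_neg, norm_mul, norm_pow,
        Complex.norm_ofNat, Complex.norm_real, Real.norm_eq_abs, abs_of_pos hπ]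
      have hl := norm_lam_le (le_trans hez hρ)
      have hρ0 : 0 ≤ ρ := le_trans (norm_nonneg _) hez
      have h5 : ‖lam (ee z)‖ ≤ 2 := by nlinarith [norm_nonneg (ee z)]
      have : 0 ≤ ‖rowS ((v₂ : ℂ) / N)‖ := norm_nonneg _
      nlinarith [norm_nonneg (lam (ee z)), sq_nonneg π]
  have hden : ‖(2 * (π : ℂ) * I) ^ 2‖ = 4 * π ^ 2 := by
    rw [two_pi_I_sq, norm_neg, norm_mul, norm_pow, Complex.norm_ofNat, Complex.norm_real,
      Real.norm_eq_abs, abs_of_pos hπ]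
  rw [norm_div, hden, div_le_iff₀ (by positivity)] at hmain
  have hdv : divVal N v₁ v₂ σ = ℘[pairOf σ] z := rfl
  rw [hdv]
  have hsplit : ℘[pairOf σ] z = (℘[pairOf σ] z - rowS z + (π : ℂ) ^ 2 / 3) + rowS z -
      (π : ℂ) ^ 2 / 3 := by ring
  have hpi3 : ‖(π : ℂ) ^ 2 / 3‖ = π ^ 2 / 3 := by
    rw [norm_div, norm_pow, Complex.norm_real, Real.norm_eq_abs, abs_of_pos hπ, Complex.norm_ofNat]
  calc ‖℘[pairOf σ] z‖ = ‖(℘[pairOf σ] z - rowS z + (π : ℂ) ^ 2 / 3) + rowS z -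
        (π : ℂ) ^ 2 / 3‖ := by rw [← hsplit]
    _ ≤ ‖℘[pairOf σ] z - rowS z + (π : ℂ) ^ 2 / 3‖ + ‖rowS z‖ + ‖(π : ℂ) ^ 2 / 3‖ :=
        le_trans (norm_sub_le _ _) (add_le_add_left (norm_add_le _ _) _)
    _ ≤ 100 * π ^ 2 + ‖rowS ((v₂ : ℂ) / N)‖ := by
        rw [hpi3]
        nlinarith [sq_nonneg π]

/-- **the division values are bounded at `i∞`.** -/
theorem isBoundedAtImInfty_divVal (N : ℕ) [NeZero N] (v₁ v₂ : ℤ) :
    IsBoundedAtImInfty (divVal N v₁ v₂) := by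
  have hNpos : (0 : ℤ) < N := by exact_mod_cast NeZero.pos N
  rw [isBoundedAtImInfty_iff]
  refine ⟨100 * π ^ 2 + ‖rowS ((v₂ : ℂ) / N)‖, N, fun σ hσ => ?_⟩
  rw [divVal_congr N (v₁ := v₁) (w₁ := v₁ % N) (v₂ := v₂) (w₂ := v₂) (by simp) rfl]
  exact norm_divVal_le N _ _ (Int.emod_nonneg _ hNpos.ne') (Int.emod_lt_of_pos _ hNpos) σ hσ

/-! ### growth at every cusp -/

open Filter Topology ModularForm Fermat.Agent.X0 Fermat.Agent.S23 Fermat.Agent.S23.PrimEltQExp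

local notation "Δ" => ModularForm.discriminant

/-- the weight-`0` division function `θ_v = (E₄E₆/Δ) · 12 ℘((v₁τ+v₂)/N)/(2πi)²` of level `Γ(N)` -/
def thetaV (N : ℕ) (v₁ v₂ : ℤ) (τ : ℍ) : ℂ :=
  cAn τ * (12 * (divVal N v₁ v₂ τ / (2 * π * I) ^ 2))

/-- **`θ_v(γτ) = θ_{vγ}(τ)` for all `γ ∈ SL₂(ℤ)`.** -/
theorem thetaV_smul (N : ℕ) (v₁ v₂ : ℤ) (γ : SL(2, ℤ)) (τ : ℍ) :
    thetaV N v₁ v₂ (γ • τ) =
      thetaV N (v₁ * γ 0 0 + v₂ * γ 1 0) (v₁ * γ 0 1 + v₂ * γ 1 1) τ := by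
  have hj : denom γ τ ^ 2 ≠ 0 := pow_ne_zero _ (denom_ne_zero γ τ)
  unfold thetaV
  rw [cAn_smul, divVal_smul]
  field_simp

theorem thetaV_congr (N : ℕ) [NeZero N] {v₁ v₂ w₁ w₂ : ℤ} (h₁ : (v₁ : ZMod N) = w₁)
    (h₂ : (v₂ : ZMod N) = w₂) (τ : ℍ) : thetaV N v₁ v₂ τ = thetaV N w₁ w₂ τ := by
  unfold thetaV
  rw [divVal_congr N h₁ h₂]

theorem thetaV_neg (N : ℕ) (v₁ v₂ : ℤ) (τ : ℍ) : thetaV N (-v₁) (-v₂) τ = thetaV N v₁ v₂ τ := by
  unfold thetaV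
  rw [divVal_neg]

theorem weberAn_eq_thetaV (M : ℕ) [NeZero M] (a : ℕ) (τ : ℍ) :
    weberAn M a τ = thetaV M a 0 (scaleH M τ) := by
  unfold weberAn thetaV
  rw [wpAn_eq_divVal]

theorem hasOrdInf_cAn : HasOrdInf 1 cAn (-1) := by
  have h := ((hasOrdInf_E₄ 1).mul (hasOrdInf_E₆ 1)).div (hasOrdInf_discriminant 1)
  have h2 : ((0 : ℤ) + 0 - ((1 : ℕ) : ℤ)) = -1 := by norm_num
  rw [h2] at h
  exact h.congr (by funext z; rfl)

/-- a function with an order at `i∞`, composed with `z ↦ (az+b)/d`, has an order at `i∞` -/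
theorem hasOrdInf_comp_triH {F : ℍ → ℂ} {k : ℤ} (h : HasOrdInf 1 F k) (N : ℕ) [NeZero N]
    {a d : ℤ} (b : ℤ) (ha : 0 < a) (hd : 0 < d) (hdN : d ∣ (N : ℤ)) :
    HasOrdInf N (fun z => F (triH a b d z)) (k * (a * ((N : ℤ) / d))) := by
  obtain ⟨L, hL, hT⟩ := h
  have h1 := hT.comp (tendsto_triH b ha hd)
  refine ⟨L * (triZeta b d) ^ k, mul_ne_zero hL (zpow_ne_zero _ (triZeta_ne_zero b d)), ?_⟩
  have h2 := h1.mul_const ((triZeta b d) ^ k)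
  refine h2.congr fun z => ?_
  simp only [Function.comp_apply]
  rw [qN_one_triH N b ha hd hdN z, mul_zpow, ← zpow_mul, mul_assoc, mul_assoc]
  congr 1
  rw [mul_comm, mul_assoc, ← zpow_add₀ (triZeta_ne_zero b d), add_neg_cancel, zpow_zero, mul_one]
  congr 1
  ring

/-- boundedness at `i∞` is preserved by `z ↦ (az+b)/d` -/
theorem isBoundedAtImInfty_comp_triH {F : ℍ → ℂ} (hF : IsBoundedAtImInfty F) {a d : ℤ} (b : ℤ)
    (ha : 0 < a) (hd : 0 < d) : IsBoundedAtImInfty (fun z => F (triH a b d z)) := by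
  have h : (fun z => F (triH a b d z)) =O[atImInfty] ((1 : ℍ → ℝ) ∘ triH a b d) :=
    Asymptotics.IsBigO.comp_tendsto hF (tendsto_triH b ha hd)
  exact h

/-- **Growth at every cusp** of `z ↦ θ_v(d · z)`. -/
theorem thetaV_scale_cusp_bound (N : ℕ) [NeZero N] (v₁ v₂ : ℤ) (d : ℕ) [NeZero d]
    (γ : SL(2, ℤ)) :
    ∃ m : ℕ, IsBoundedAtImInfty (fun z => Δ z ^ m * thetaV N v₁ v₂ (scaleH d (γ • z))) := by
  obtain ⟨γ1, a, b, d', ha, hd', had, -, hz⟩ := exists_scaleH_smul_eq d γ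
  have hd'd : d' ∣ (d : ℤ) := ⟨a, by rw [← had]; ring⟩
  obtain ⟨m, hm⟩ := (hasOrdInf_comp_triH hasOrdInf_cAn d b ha hd' hd'd).exists_discriminant_pow_mul_isBounded
  refine ⟨m, ?_⟩
  have hb := isBoundedAtImInfty_comp_triH
    (isBoundedAtImInfty_divVal N (v₁ * γ1 0 0 + v₂ * γ1 1 0) (v₁ * γ1 0 1 + v₂ * γ1 1 1)) b ha hd'
  have hc : IsBoundedAtImInfty (fun _ : ℍ => (12 : ℂ) / (2 * π * I) ^ 2) :=
    Filter.const_boundedAtFilter _ _
  have hprod := (hm.mul hb).mul hc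
  have hfun : (fun z => Δ z ^ m * thetaV N v₁ v₂ (scaleH d (γ • z))) =
      ((fun z => Δ z ^ m * cAn (triH a b d' z)) *
        (fun z => divVal N (v₁ * γ1 0 0 + v₂ * γ1 1 0) (v₁ * γ1 0 1 + v₂ * γ1 1 1)
          (triH a b d' z))) * (fun _ : ℍ => (12 : ℂ) / (2 * π * I) ^ 2) := by
    funext z
    simp only [Pi.mul_apply]
    rw [hz z, thetaV_smul, thetaV]
    ring
  rw [hfun]
  exact hprod

/-- **Growth at every cusp of the analytic Weber functions** (the generator case of the hypothesis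
`hb` of `isSepVar_gen`). -/
theorem weberAn_cusp_bound (M : ℕ) [NeZero M] (a : ℕ) (γ : SL(2, ℤ)) :
    ∃ m : ℕ, IsBoundedAtImInfty (fun z => Δ z ^ m * weberAn M a (γ • z)) := by
  obtain ⟨m, hm⟩ := thetaV_scale_cusp_bound M a 0 M γ
  refine ⟨m, ?_⟩
  simpa only [weberAn_eq_thetaV] using hm

/-- the same for `z ↦ W_a(p z)` (generators of `K1Lev M p`) -/
theorem weberAn_scale_cusp_bound (M : ℕ) [NeZero M] (a : ℕ) (p : ℕ) [NeZero p] (γ : SL(2, ℤ)) :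
    ∃ m : ℕ, IsBoundedAtImInfty (fun z => Δ z ^ m * weberAn M a (scaleH p (γ • z))) := by
  have : NeZero (M * p) := ⟨Nat.mul_ne_zero (NeZero.ne M) (NeZero.ne p)⟩
  obtain ⟨m, hm⟩ := thetaV_scale_cusp_bound M a 0 (M * p) γ
  refine ⟨m, ?_⟩
  have h : ∀ w : ℍ, scaleH M (scaleH p w) = scaleH (M * p) w := fun w => by
    apply UpperHalfPlane.ext
    rw [coe_scaleH, coe_scaleH, coe_scaleH]
    push_cast
    ring
  simpa only [weberAn_eq_thetaV, h] using hm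

end

end Fermat.Agent.DS.Div
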