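import Mathlib

/-!
# Programme III, X1-AN-1b (`DS/Div`, the `℘`-half), file 1: the Tate expansion of `℘`

`σ ∈ ℍ`, lattice `ℤσ + ℤ` (Mathlib's `PeriodPair`), `Q = e(σ)`, `w = e(z)`, `e(u) = exp(2πiu)`.
For `0 < Im z < Im σ`:

  `℘(z)/(2πi)² = 1/12 + λ(w) + ∑_{m ≥ 1} (λ(Q^m w) + λ(Q^m / w) - 2 λ(Q^m))`,   `λ(x) = ∑ k x^k`

(`hasSum_wp_tate`).  Proof: Mathlib's unconditional lattice sum for `℘`, summed row by row, and the
Lipschitz formula `∑_n (u+n)⁻² = (2πi)² λ(e(u))` (`EisensteinSeries.qExpansion_identity`, `k = 1`).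
-/

set_option autoImplicit false

namespace Fermat.Agent.DS.Div

open Complex
open UpperHalfPlane hiding I
open scoped Real PeriodPair Nat

noncomputable section


/-- The period pair `(σ, 1)`. -/
def pairOf (σ : ℍ) : PeriodPair where
  ω₁ := (σ : ℂ)
  ω₂ := 1
  indep := by
    rw [LinearIndependent.pair_iff]
    intro a b h
    have him := congrArg Complex.im h
    simp only [Complex.add_im, Complex.real_smul,
      Complex.mul_im, Complex.ofReal_re, Complex.ofReal_im, Complex.one_im, mul_zero, zero_mul,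
      add_zero, Complex.zero_im, UpperHalfPlane.coe_im] at him
    have ha : a = 0 := by
      rcases mul_eq_zero.mp him with h1 | h1
      · exact h1
      · exact absurd h1 σ.im_pos.ne'
    subst ha
    have hre := congrArg Complex.re h
    simp at hre
    exact ⟨rfl, hre⟩

@[simp] theorem pairOf_ω₁ (σ : ℍ) : (pairOf σ).ω₁ = σ := rfl
@[simp] theorem pairOf_ω₂ (σ : ℍ) : (pairOf σ).ω₂ = 1 := rfl

/-- `℘` of the lattice `ℤσ + ℤ` as a sum over `ℤ × ℤ`. -/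
theorem hasSum_wp_prod (σ : ℍ) (z : ℂ) :
    HasSum (fun x : ℤ × ℤ => 1 / (z - ((x.1 : ℂ) * σ + x.2)) ^ 2 - 1 / ((x.1 : ℂ) * σ + x.2) ^ 2)
      (℘[pairOf σ] z) := by
  have h := (pairOf σ).hasSum_weierstrassP z
  rw [← (pairOf σ).latticeEquivProd.symm.toEquiv.hasSum_iff] at h
  convert h using 2 with x
  simp only [Function.comp, LinearEquiv.coe_toEquiv]
  rw [PeriodPair.latticeEquiv_symm_apply]
  simp



/-- The row sum `∑_{n ∈ ℤ} 1/(u+n)²`. -/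
def rowS (u : ℂ) : ℂ := ∑' n : ℤ, 1 / (u + n) ^ 2

theorem summable_rowS (u : ℂ) : Summable fun n : ℤ => 1 / (u + n) ^ 2 := by
  have h := EisensteinSeries.linear_right_summable u 1 (k := 2) le_rfl
  refine h.congr fun n => ?_
  simp [one_div]

theorem hasSum_rowS (u : ℂ) : HasSum (fun n : ℤ => 1 / (u + n) ^ 2) (rowS u) :=
  (summable_rowS u).hasSum

theorem rowS_neg (u : ℂ) : rowS (-u) = rowS u := by
  unfold rowS
  rw [← (Equiv.neg ℤ).tsum_eq]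
  refine tsum_congr fun n => ?_
  simp only [Equiv.neg_apply, Int.cast_neg]
  congr 1
  ring

/-- The Lambert function `∑ k x^k`. -/
def lam (x : ℂ) : ℂ := ∑' k : ℕ, (k : ℂ) * x ^ k

theorem hasSum_lam {x : ℂ} (hx : ‖x‖ < 1) : HasSum (fun k : ℕ => (k : ℂ) * x ^ k) (lam x) :=
  (hasSum_coe_mul_geometric_of_norm_lt_one hx).summable.hasSum

theorem lam_eq {x : ℂ} (hx : ‖x‖ < 1) : lam x = x / (1 - x) ^ 2 :=
  (hasSum_coe_mul_geometric_of_norm_lt_one hx).tsum_eq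

/-- `e(u) = exp(2πiu)`. -/
def ee (u : ℂ) : ℂ := cexp (2 * π * I * u)

theorem norm_ee (u : ℂ) : ‖ee u‖ = Real.exp (-2 * π * u.im) := by
  rw [ee, Complex.norm_exp]
  congr 1
  have h2 : (2 * (π : ℂ) * I * u).re = -2 * π * u.im := by
    simp [Complex.mul_re, Complex.mul_im]
  exact h2

theorem norm_ee_lt_one {u : ℂ} (hu : 0 < u.im) : ‖ee u‖ < 1 := by
  rw [norm_ee, Real.exp_lt_one_iff]  -- exp x < 1 ↔ x < 0
  have := Real.pi_pos
  nlinarith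

theorem ee_add (u v : ℂ) : ee (u + v) = ee u * ee v := by
  rw [ee, ee, ee, ← Complex.exp_add]; congr 1; ring

theorem ee_neg (u : ℂ) : ee (-u) = (ee u)⁻¹ := by
  rw [ee, ee, ← Complex.exp_neg]; congr 1; ring

/-- Lipschitz formula, `k = 2`. -/
theorem rowS_eq_lam {u : ℂ} (hu : 0 < u.im) : rowS u = (2 * π * I) ^ 2 * lam (ee u) := by
  have h := EisensteinSeries.qExpansion_identity (k := 1) le_rfl ⟨u, hu⟩
  simp only [Nat.reduceAdd, pow_one, Nat.factorial_one,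
    Nat.cast_one, div_one] at h
  unfold rowS lam ee
  rw [h]
  ring

theorem rowS_zero : rowS 0 = (π : ℂ) ^ 2 / 3 := by
  unfold rowS
  have h := two_mul_riemannZeta_eq_tsum_int_inv_pow_of_even (k := 2) le_rfl (by decide)
  rw [Nat.cast_ofNat, riemannZeta_two] at h
  simp only [zero_add, one_div]
  rw [← h]
  ring


theorem ee_nat_mul (n : ℕ) (u : ℂ) : ee ((n : ℂ) * u) = ee u ^ n := by
  rw [ee, ee, ← Complex.exp_nat_mul]; congr 1; ring

theorem ee_ne_zero (u : ℂ) : ee u ≠ 0 := Complex.exp_ne_zero _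

theorem im_natCast_mul (N : ℕ) (u : ℂ) : ((N : ℂ) * u).im = (N : ℝ) * u.im := by
  simp [Complex.mul_im]

/-- The `m`-th row of `℘`. -/
theorem hasSum_wp_row (σ : ℍ) (z : ℂ) (m : ℤ) :
    HasSum (fun n : ℤ => 1 / (z - ((m : ℂ) * σ + n)) ^ 2 - 1 / ((m : ℂ) * σ + n) ^ 2)
      (rowS ((m : ℂ) * σ - z) - rowS ((m : ℂ) * σ)) := by
  have h1 := hasSum_rowS ((m : ℂ) * σ - z)
  have h2 := hasSum_rowS ((m : ℂ) * σ)
  convert h1.sub h2 using 2 with n
  congr 2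
  ring

/-- `℘` as the sum of its rows. -/
theorem hasSum_wp_rows (σ : ℍ) (z : ℂ) :
    HasSum (fun m : ℤ => rowS ((m : ℂ) * σ - z) - rowS ((m : ℂ) * σ)) (℘[pairOf σ] z) :=
  (hasSum_wp_prod σ z).prod_fiberwise fun m => hasSum_wp_row σ z m

theorem two_pi_I_sq : (2 * (π : ℂ) * I) ^ 2 = -(4 * (π : ℂ) ^ 2) := by
  rw [mul_pow, mul_pow, I_sq]; ring

theorem two_pi_I_sq_ne_zero : (2 * (π : ℂ) * I) ^ 2 ≠ 0 := by
  rw [two_pi_I_sq]
  have : (π : ℂ) ≠ 0 := by exact_mod_cast Real.pi_ne_zero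
  simp [this]

/-- **The Tate expansion of `℘`** (analytic form). -/
theorem hasSum_wp_tate (σ : ℍ) {z : ℂ} (hz0 : 0 < z.im) (hz1 : z.im < σ.im) :
    HasSum (fun n : ℕ => lam (ee σ ^ (n + 1) * ee z) + lam (ee σ ^ (n + 1) / ee z) -
        2 * lam (ee σ ^ (n + 1)))
      (℘[pairOf σ] z / (2 * π * I) ^ 2 - 1 / 12 - lam (ee z)) := by
  set g : ℤ → ℂ := fun m => rowS ((m : ℂ) * σ - z) - rowS ((m : ℂ) * σ) with hg
  have hrows : HasSum g (℘[pairOf σ] z) := hasSum_wp_rows σ z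
  have h1 := hrows.nat_add_neg
  have h2 := (hasSum_nat_add_iff' 1).mpr h1
  simp only [Finset.range_one, Finset.sum_singleton, Nat.cast_zero, neg_zero] at h2
  -- the row at `0`
  have hg0 : g 0 = (2 * π * I) ^ 2 * lam (ee z) - (π : ℂ) ^ 2 / 3 := by
    simp only [hg, Int.cast_zero, zero_mul, zero_sub]
    rw [rowS_neg, rowS_zero, rowS_eq_lam hz0]
  -- the rows at `± (n + 1)`
  have hrow : ∀ n : ℕ, g ((n + 1 : ℕ) : ℤ) + g (-((n + 1 : ℕ) : ℤ)) =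
      (2 * π * I) ^ 2 * (lam (ee σ ^ (n + 1) * ee z) + lam (ee σ ^ (n + 1) / ee z) -
        2 * lam (ee σ ^ (n + 1))) := by
    intro n
    have hN : (1 : ℝ) ≤ ((n + 1 : ℕ) : ℝ) := by exact_mod_cast Nat.succ_le_succ (Nat.zero_le n)
    have hσim : 0 < (σ : ℂ).im := σ.im_pos
    have him1 : (((n + 1 : ℕ) : ℂ) * (σ : ℂ)).im = ((n + 1 : ℕ) : ℝ) * (σ : ℂ).im :=
      im_natCast_mul _ _
    have hpos1 : 0 < (((n + 1 : ℕ) : ℂ) * (σ : ℂ)).im := by
      rw [him1]; positivity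
    have hge : (σ : ℂ).im ≤ (((n + 1 : ℕ) : ℂ) * (σ : ℂ)).im := by
      rw [him1]; nlinarith
    have hpos2 : 0 < (((n + 1 : ℕ) : ℂ) * (σ : ℂ) - z).im := by
      rw [Complex.sub_im]
      have : z.im < (σ : ℂ).im := hz1
      linarith
    have hpos3 : 0 < (((n + 1 : ℕ) : ℂ) * (σ : ℂ) + z).im := by
      rw [Complex.add_im]; linarith
    have e1 : ee (((n + 1 : ℕ) : ℂ) * (σ : ℂ) - z) = ee σ ^ (n + 1) / ee z := by
      rw [sub_eq_add_neg, ee_add, ee_neg, ee_nat_mul, div_eq_mul_inv]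
    have e2 : ee (((n + 1 : ℕ) : ℂ) * (σ : ℂ) + z) = ee σ ^ (n + 1) * ee z := by
      rw [ee_add, ee_nat_mul]
    have e3 : ee (((n + 1 : ℕ) : ℂ) * (σ : ℂ)) = ee σ ^ (n + 1) := ee_nat_mul _ _
    have hA : g ((n + 1 : ℕ) : ℤ) = (2 * π * I) ^ 2 * lam (ee σ ^ (n + 1) / ee z) -
        (2 * π * I) ^ 2 * lam (ee σ ^ (n + 1)) := by
      simp only [hg, Int.cast_natCast]
      rw [rowS_eq_lam hpos2, rowS_eq_lam hpos1, e1, e3]
    have hB : g (-((n + 1 : ℕ) : ℤ)) = (2 * π * I) ^ 2 * lam (ee σ ^ (n + 1) * ee z) -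
        (2 * π * I) ^ 2 * lam (ee σ ^ (n + 1)) := by
      simp only [hg, Int.cast_neg, Int.cast_natCast]
      have r1 : rowS (-((n + 1 : ℕ) : ℂ) * (σ : ℂ) - z) =
          rowS (((n + 1 : ℕ) : ℂ) * (σ : ℂ) + z) := by
        rw [← rowS_neg]; congr 1; ring
      have r2 : rowS (-((n + 1 : ℕ) : ℂ) * (σ : ℂ)) = rowS (((n + 1 : ℕ) : ℂ) * (σ : ℂ)) := by
        rw [← rowS_neg]; congr 1; ring
      rw [r1, r2, rowS_eq_lam hpos3, rowS_eq_lam hpos1, e2, e3]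
    rw [hA, hB]
    ring
  have h3 := h2.mul_left ((2 * π * I) ^ 2)⁻¹
  have hfun : (fun n : ℕ => lam (ee σ ^ (n + 1) * ee z) + lam (ee σ ^ (n + 1) / ee z) -
      2 * lam (ee σ ^ (n + 1))) =
      fun i : ℕ => ((2 * π * I) ^ 2)⁻¹ * (g ((i + 1 : ℕ) : ℤ) + g (-((i + 1 : ℕ) : ℤ))) := by
    funext n
    rw [hrow n, ← mul_assoc, inv_mul_cancel₀ two_pi_I_sq_ne_zero, one_mul]
  have hval : ℘[pairOf σ] z / (2 * π * I) ^ 2 - 1 / 12 - lam (ee z) =
      ((2 * π * I) ^ 2)⁻¹ * (℘[pairOf σ] z + g 0 - (g 0 + g 0)) := by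
    rw [hg0]
    have hpi : (π : ℂ) ≠ 0 := by exact_mod_cast Real.pi_ne_zero
    have h4 : (2 * (π : ℂ) * I) ^ 2 = -(4 * (π : ℂ) ^ 2) := two_pi_I_sq
    rw [h4]
    field_simp
    ring
  rw [hfun, hval]
  exact h3

end

end Fermat.Agent.DS.Div
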