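import Mathlib
import Fermat.Agent.DS.X1.K1Deg
import Fermat.Agent.DS.Div.Cusps

/-!
# Programme III, X1-AN-1b: the instances `WeberAnData M`, `WeberCuspData M`

The analytic Weber functions `weberAn M a` (`DS/Div/Weber.lean`, `DS/Div/Cusps.lean`) fill helper23's
structures `WeberAnData M` (`DS/X1/Psi1.lean`) and `WeberCuspData M` (`DS/X1/K1Deg.lean`)
unconditionally.
-/

set_option autoImplicit false

noncomputable section

namespace Fermat.Agent.DS.Div

open UpperHalfPlane CongruenceSubgroup Fermat.Agent.X0 Fermat.Agent.DS.X1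
open scoped MatrixGroups

/-- **AN-1b**: the analytic input of `Psi1`. -/
def weberAnData (M : ℕ) [NeZero M] : WeberAnData M where
  W := weberAn M
  real a ha haM :=
    ⟨isMerCusp_weberAn ha haM, qexpL_weberAn ha haM, fun γ hγ z => weberAn_smul_Gamma1 γ hγ a z⟩
  smul γ hγ a b _ _ _ _ hab z := weberAn_smul γ hγ a b hab z

/-- **AN-1b + growth at all cusps**: the analytic input of the degree theorem for `K1Bar M`. -/
def weberCuspData (M : ℕ) [NeZero M] : WeberCuspData M where
  toWeberAnData := weberAnData M
  bound a _ _ g := weberAn_cusp_bound M a g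

@[simp] theorem weberCuspData_W (M : ℕ) [NeZero M] : (weberCuspData M).W = weberAn M := rfl

@[simp] theorem weberAnData_W (M : ℕ) [NeZero M] : (weberAnData M).W = weberAn M := rfl

end Fermat.Agent.DS.Div
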